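import Mathlib

/-!
# NEWFORM lib (helper623), part 1: explicit cosets of `Γ₀(N)` in `Γ₀(M)` and trace formulas

For `M ∣ N` we parametrise `Γ₀(M) / Γ₀(N)` (in Mathlib's `GL₂(ℝ)` form, as used by
`SlashInvariantForm.trace`, `ModularForm.trace`, `CuspForm.trace`) by explicit representatives:

* `N = M * p`, `p ∣ M`:   `[1, 0; M j, 1]`, `j < p`;
* `N = M * p`, `p` prime, `p ∤ M`, `p x - M y = 1`:  `1` and `[x, x j + y; M, M j + p]`, `j < p`.

Main results: `coe_trace_eq_sum_lowRep` and `coe_trace_eq_sum_newRep` (for slash invariant forms,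
modular forms and cusp forms).
-/

set_option autoImplicit false
set_option linter.unusedSectionVars false

namespace Fermat.Agent.Lib.Newform.H623

open UpperHalfPlane ModularForm Matrix.SpecialLinearGroup SlashInvariantForm CongruenceSubgroup
open scoped MatrixGroups ModularForm Manifold

/-! ### Generalities -/

theorem gamma0_mem_iff_dvd (N : ℕ) {g : SL(2, ℤ)} :
    g ∈ Gamma0 N ↔ (N : ℤ) ∣ g 1 0 := by
  rw [Gamma0_mem, ZMod.intCast_zmod_eq_zero_iff_dvd]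

theorem gamma0_le_of_dvd {M N : ℕ} (h : M ∣ N) : Gamma0 N ≤ Gamma0 M := by
  intro g hg
  rw [gamma0_mem_iff_dvd] at hg ⊢
  exact (Int.natCast_dvd_natCast.mpr h).trans hg

theorem gamma0GL_le_of_dvd {M N : ℕ} (h : M ∣ N) :
    (Gamma0 N : Subgroup (GL (Fin 2) ℝ)) ≤ (Gamma0 M : Subgroup (GL (Fin 2) ℝ)) :=
  Subgroup.map_mono (gamma0_le_of_dvd h)

theorem mem_gamma0GL_iff (N : ℕ) (g : SL(2, ℤ)) :
    mapGL ℝ g ∈ (Gamma0 N : Subgroup (GL (Fin 2) ℝ)) ↔ g ∈ Gamma0 N := by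
  constructor
  · rintro ⟨x, hx, hxe⟩
    have : x = g := mapGL_injective hxe
    rwa [← this]
  · intro h
    exact Subgroup.mem_map_of_mem _ h

theorem mul_inv_apply_one_zero (g h : SL(2, ℤ)) :
    (g * h⁻¹) 1 0 = g 1 0 * h 1 1 - g 1 1 * h 1 0 := by
  rw [Matrix.SpecialLinearGroup.coe_mul, Matrix.SpecialLinearGroup.coe_inv,
    Matrix.adjugate_fin_two, Matrix.mul_apply, Fin.sum_univ_two]
  simp
  ring

theorem sl_det_eq (g : SL(2, ℤ)) : g 0 0 * g 1 1 - g 0 1 * g 1 0 = 1 := by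
  have h := g.det_coe
  rwa [Matrix.det_fin_two] at h

/-- The instance needed for traces from level `N` to level `M`. -/
theorem isFiniteRelIndex_gamma0 (N M : ℕ) [NeZero N] :
    (Gamma0 N : Subgroup (GL (Fin 2) ℝ)).IsFiniteRelIndex
      (Gamma0 M : Subgroup (GL (Fin 2) ℝ)) := by
  have hle : (Gamma0 M : Subgroup (GL (Fin 2) ℝ)) ≤ 𝒮ℒ := by
    rintro _ ⟨g, -, rfl⟩
    exact ⟨g, rfl⟩
  exact Subgroup.isFiniteRelIndex_of_le_right _ hle

section general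

variable (N M : ℕ)

/-- The coset space `Γ₀(M) / (Γ₀(N) ⊓ Γ₀(M))` (in Mathlib's `GL₂(ℝ)`-form). -/
abbrev Cosets : Type :=
  (Gamma0 M : Subgroup (GL (Fin 2) ℝ)) ⧸
    ((Gamma0 N : Subgroup (GL (Fin 2) ℝ)).subgroupOf (Gamma0 M : Subgroup (GL (Fin 2) ℝ)))

/-- The coset `g⁻¹ Γ₀(N)`, on which `quotientFunc F` is `F ∣[k] g`. -/
noncomputable def cosetOf (g : Gamma0 M) : Cosets N M :=
  ((⟨mapGL ℝ (g : SL(2, ℤ))⁻¹, ⟨(g : SL(2, ℤ))⁻¹, inv_mem g.2, rfl⟩⟩ :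
    (Gamma0 M : Subgroup (GL (Fin 2) ℝ))) : Cosets N M)

theorem quotientFunc_cosetOf {k : ℤ} {F : Type*} [FunLike F ℍ ℂ]
    [SlashInvariantFormClass F (Gamma0 N : Subgroup (GL (Fin 2) ℝ)) k] (f : F)
    (g : Gamma0 M) :
    quotientFunc (ℋ := (Gamma0 M : Subgroup (GL (Fin 2) ℝ))) f (cosetOf N M g) =
      (⇑f : ℍ → ℂ) ∣[k] (mapGL ℝ (g : SL(2, ℤ))) := by
  rw [cosetOf]
  show quotientFunc f ⟦_⟧ = _
  rw [quotientFunc_mk]
  simp

theorem cosetOf_eq_iff (g g' : Gamma0 M) :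
    cosetOf N M g = cosetOf N M g' ↔ (g : SL(2, ℤ)) * (g' : SL(2, ℤ))⁻¹ ∈ Gamma0 N := by
  rw [cosetOf, cosetOf, QuotientGroup.eq, Subgroup.mem_subgroupOf]
  simp only [Subgroup.coe_mul, Subgroup.coe_inv]
  rw [← map_inv, ← map_mul, inv_inv]
  exact mem_gamma0GL_iff N _

theorem cosetOf_surjective : Function.Surjective (cosetOf N M) := by
  intro q
  induction q using Quotient.inductionOn with
  | h r =>
    obtain ⟨r, γ₀, hγ₀, rfl⟩ := r
    refine ⟨⟨γ₀⁻¹, inv_mem hγ₀⟩, ?_⟩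
    rw [cosetOf]
    simp only [inv_inv]

/-- **Trace via representatives.**  If `r : ι → Γ₀(M)` is a system of representatives for
`Γ₀(N) \ Γ₀(M)`, then the sum of `quotientFunc f` over the coset space is `∑ i, f ∣[k] r i`. -/
theorem sum_quotientFunc_eq_sum_reps {ι : Type*} [Fintype ι] (r : ι → Gamma0 M)
    (hinj : ∀ i j, (r i : SL(2, ℤ)) * (r j : SL(2, ℤ))⁻¹ ∈ Gamma0 N → i = j)
    (hsurj : ∀ g : Gamma0 M, ∃ i, (r i : SL(2, ℤ)) * (g : SL(2, ℤ))⁻¹ ∈ Gamma0 N)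
    {k : ℤ} {F : Type*} [FunLike F ℍ ℂ]
    [SlashInvariantFormClass F (Gamma0 N : Subgroup (GL (Fin 2) ℝ)) k] (f : F)
    [Fintype (Cosets N M)] :
    ∑ q : Cosets N M, quotientFunc (ℋ := (Gamma0 M : Subgroup (GL (Fin 2) ℝ))) f q =
      ∑ i, (⇑f : ℍ → ℂ) ∣[k] (mapGL ℝ (r i : SL(2, ℤ))) := by
  have hbij : Function.Bijective (fun i => cosetOf N M (r i)) := by
    constructor
    · intro i j hij
      exact hinj i j ((cosetOf_eq_iff N M _ _).mp hij)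
    · intro q
      obtain ⟨g, rfl⟩ := cosetOf_surjective N M q
      obtain ⟨i, hi⟩ := hsurj g
      exact ⟨i, (cosetOf_eq_iff N M _ _).mpr hi⟩
  rw [← Equiv.sum_comp (Equiv.ofBijective _ hbij)]
  refine Finset.sum_congr rfl fun i _ => ?_
  show quotientFunc f (cosetOf N M (r i)) = _
  rw [quotientFunc_cosetOf]

end general

/-! ### Representatives when `p ∣ M`: `Γ₀(M p) \ Γ₀(M)` has representatives `[1, 0; M j, 1]` -/

/-- The matrix `[1, 0; c, 1]`. -/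
def lowerUni (c : ℤ) : SL(2, ℤ) :=
  ⟨!![1, 0; c, 1], by rw [Matrix.det_fin_two_of]; ring⟩

@[simp] theorem coe_lowerUni (c : ℤ) :
    ((lowerUni c : SL(2, ℤ)) : Matrix (Fin 2) (Fin 2) ℤ) = !![1, 0; c, 1] := rfl

theorem lowerUni_mem_gamma0 (M : ℕ) (j : ℤ) : lowerUni (M * j) ∈ Gamma0 M := by
  rw [gamma0_mem_iff_dvd]
  exact ⟨j, by simp⟩

/-- Representatives of `Γ₀(M p) \ Γ₀(M)` for `p ∣ M`. -/
def lowRep (M p : ℕ) (j : Fin p) : Gamma0 M :=
  ⟨lowerUni (M * (j : ℕ)), lowerUni_mem_gamma0 M _⟩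

@[simp] theorem coe_lowRep (M p : ℕ) (j : Fin p) :
    ((lowRep M p j : Gamma0 M) : SL(2, ℤ)) = lowerUni (M * (j : ℕ)) := rfl

theorem lowRep_inj (M p : ℕ) [NeZero M] (i j : Fin p)
    (h : (lowRep M p i : SL(2, ℤ)) * (lowRep M p j : SL(2, ℤ))⁻¹ ∈ Gamma0 (M * p)) : i = j := by
  rw [gamma0_mem_iff_dvd, mul_inv_apply_one_zero] at h
  simp only [coe_lowRep, coe_lowerUni, Matrix.of_apply, Matrix.cons_val', Matrix.cons_val_one,
    Matrix.cons_val_zero, Matrix.cons_val_fin_one] at h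
  have hM : (M : ℤ) ≠ 0 := by exact_mod_cast NeZero.ne M
  have h2 : (p : ℤ) ∣ (i : ℕ) - (j : ℕ) := by
    have h3 : (M : ℤ) * p ∣ M * ((i : ℕ) - (j : ℕ)) := by
      have : (M : ℤ) * (i : ℕ) * 1 - 1 * (M * (j : ℕ)) = M * ((i : ℕ) - (j : ℕ)) := by ring
      rw [← this]
      exact_mod_cast h
    exact (mul_dvd_mul_iff_left hM).mp h3
  apply Fin.ext
  have hi := i.2
  have hj := j.2
  obtain ⟨c, hc⟩ := h2
  have hc0 : c = 0 := by
    by_contra hne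
    have h1 : 1 ≤ |c| := Int.one_le_abs hne
    have h4 : |((i : ℕ) : ℤ) - (j : ℕ)| = p * |c| := by
      rw [hc, abs_mul, abs_of_nonneg (Int.natCast_nonneg p)]
    have h5 : |((i : ℕ) : ℤ) - (j : ℕ)| < p := by
      rw [abs_lt]; constructor <;> omega
    nlinarith [Int.natCast_nonneg p]
  rw [hc0, mul_zero] at hc
  omega

theorem lowRep_surj (M p : ℕ) [NeZero p] (hpM : p ∣ M) (g : Gamma0 M) :
    ∃ i, (lowRep M p i : SL(2, ℤ)) * (g : SL(2, ℤ))⁻¹ ∈ Gamma0 (M * p) := by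
  obtain ⟨g, hg⟩ := g
  have hg' := (gamma0_mem_iff_dvd M).mp hg
  obtain ⟨c', hc'⟩ := hg'
  have hdet := sl_det_eq g
  -- `a d ≡ 1 mod p`
  have hpc : (p : ℤ) ∣ g 1 0 := by
    rw [hc']
    exact (Int.natCast_dvd_natCast.mpr hpM).mul_right c'
  have had : ((g 0 0 : ℤ) : ZMod p) * ((g 1 1 : ℤ) : ZMod p) = 1 := by
    have h0 : ((g 1 0 : ℤ) : ZMod p) = 0 := (ZMod.intCast_zmod_eq_zero_iff_dvd _ _).mpr hpc
    have := congrArg (fun z : ℤ => (z : ZMod p)) hdet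
    simp only [Int.cast_sub, Int.cast_mul, Int.cast_one, h0, mul_zero, sub_zero] at this
    exact this
  set j : ZMod p := (c' : ZMod p) * ((g 0 0 : ℤ) : ZMod p) with hj
  refine ⟨⟨j.val, ZMod.val_lt j⟩, ?_⟩
  rw [gamma0_mem_iff_dvd, mul_inv_apply_one_zero]
  simp only [coe_lowRep, coe_lowerUni, Matrix.of_apply, Matrix.cons_val', Matrix.cons_val_one,
    Matrix.cons_val_zero, Matrix.cons_val_fin_one]
  have : (M : ℤ) * (j.val : ℕ) * g 1 1 - 1 * g 1 0 = M * ((j.val : ℤ) * g 1 1 - c') := by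
    rw [hc']; ring
  rw [this]
  push_cast
  apply mul_dvd_mul_left
  rw [← ZMod.intCast_zmod_eq_zero_iff_dvd]
  push_cast
  rw [ZMod.natCast_zmod_val, hj, mul_assoc, had, mul_one, sub_self]

/-! ### Representatives when `p` is prime and `p ∤ M` -/

/-- The matrix `[x, x j + y; M, M j + p]` (of determinant `p x - M y = 1`). -/
def newMat (M p : ℕ) (x y : ℤ) (hxy : (p : ℤ) * x - M * y = 1) (j : ℤ) : SL(2, ℤ) :=
  ⟨!![x, x * j + y; (M : ℤ), M * j + p], by rw [Matrix.det_fin_two_of]; linear_combination hxy⟩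

@[simp] theorem coe_newMat (M p : ℕ) (x y : ℤ) (hxy : (p : ℤ) * x - M * y = 1) (j : ℤ) :
    ((newMat M p x y hxy j : SL(2, ℤ)) : Matrix (Fin 2) (Fin 2) ℤ) =
      !![x, x * j + y; (M : ℤ), M * j + p] := rfl

theorem newMat_mem_gamma0 (M p : ℕ) (x y : ℤ) (hxy : (p : ℤ) * x - M * y = 1) (j : ℤ) :
    newMat M p x y hxy j ∈ Gamma0 M := by
  rw [gamma0_mem_iff_dvd]
  exact ⟨1, by simp⟩

/-- Representatives of `Γ₀(M p) \ Γ₀(M)` for `p ∤ M` prime: `1` and `newMat j`, `j < p`. -/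
def newRep (M p : ℕ) (x y : ℤ) (hxy : (p : ℤ) * x - M * y = 1) : Option (Fin p) → Gamma0 M
  | none => 1
  | some j => ⟨newMat M p x y hxy (j : ℕ), newMat_mem_gamma0 M p x y hxy _⟩

theorem newRep_inj (M p : ℕ) [hp : Fact p.Prime] (hpM : ¬ p ∣ M)
    (x y : ℤ) (hxy : (p : ℤ) * x - M * y = 1) (i j : Option (Fin p))
    (h : (newRep M p x y hxy i : SL(2, ℤ)) * (newRep M p x y hxy j : SL(2, ℤ))⁻¹
      ∈ Gamma0 (M * p)) : i = j := by
  rw [gamma0_mem_iff_dvd, mul_inv_apply_one_zero] at h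
  have hM0 : M ≠ 0 := fun h0 => hpM (h0 ▸ dvd_zero p)
  have hM : (M : ℤ) ≠ 0 := by exact_mod_cast hM0
  have hpM' : ¬ (p : ℤ) ∣ M := fun h => hpM (Int.natCast_dvd_natCast.mp h)
  have hpp : Prime (p : ℤ) := Nat.prime_iff_prime_int.mp hp.out
  have key : ∀ z : ℤ, ((M * p : ℕ) : ℤ) ∣ M * z → (p : ℤ) ∣ z := by
    intro z hz
    push_cast at hz
    exact (mul_dvd_mul_iff_left hM).mp hz
  rcases i with _ | i <;> rcases j with _ | j
  · rfl
  · exfalso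
    simp only [newRep, OneMemClass.coe_one, Matrix.SpecialLinearGroup.coe_one, coe_newMat,
      Matrix.of_apply, Matrix.cons_val', Matrix.cons_val_one, Matrix.cons_val_zero,
      Matrix.cons_val_fin_one, Matrix.one_apply_ne, Matrix.one_apply_eq, ne_eq, one_ne_zero,
      not_false_eq_true, zero_mul, one_mul, zero_sub] at h
    have := key (-1) (by simpa using h)
    exact hpp.not_isUnit (isUnit_of_dvd_unit this (by simp))
  · exfalso
    simp only [newRep, OneMemClass.coe_one, Matrix.SpecialLinearGroup.coe_one, coe_newMat,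
      Matrix.of_apply, Matrix.cons_val', Matrix.cons_val_one, Matrix.cons_val_zero,
      Matrix.cons_val_fin_one, Matrix.one_apply_ne, Matrix.one_apply_eq, ne_eq, one_ne_zero,
      not_false_eq_true, mul_zero, mul_one, sub_zero] at h
    have := key 1 (by simpa using h)
    exact hpp.not_isUnit (isUnit_of_dvd_unit this (by simp))
  · simp only [newRep, coe_newMat, Matrix.of_apply, Matrix.cons_val', Matrix.cons_val_one,
      Matrix.cons_val_zero, Matrix.cons_val_fin_one] at h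
    have h1 : (M : ℤ) * (M * (j : ℕ) + p) - (M * (i : ℕ) + p) * M =
        M * (M * ((j : ℕ) - (i : ℕ))) := by ring
    rw [h1] at h
    have h2 := key _ h
    have h3 : (p : ℤ) ∣ (j : ℕ) - (i : ℕ) := (hpp.dvd_or_dvd h2).resolve_left hpM'
    congr 1
    apply Fin.ext
    have hi := i.2
    have hj := j.2
    obtain ⟨c, hc⟩ := h3
    have hc0 : c = 0 := by
      by_contra hne
      have h1 : 1 ≤ |c| := Int.one_le_abs hne
      have h4 : |((j : ℕ) : ℤ) - (i : ℕ)| = p * |c| := by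
        rw [hc, abs_mul, abs_of_nonneg (Int.natCast_nonneg p)]
      have h5 : |((j : ℕ) : ℤ) - (i : ℕ)| < p := by
        rw [abs_lt]; constructor <;> omega
      nlinarith [Int.natCast_nonneg p]
    rw [hc0, mul_zero] at hc
    omega

theorem newRep_surj (M p : ℕ) [hp : Fact p.Prime] (hpM : ¬ p ∣ M)
    (x y : ℤ) (hxy : (p : ℤ) * x - M * y = 1) (g : Gamma0 M) :
    ∃ i, (newRep M p x y hxy i : SL(2, ℤ)) * (g : SL(2, ℤ))⁻¹ ∈ Gamma0 (M * p) := by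
  obtain ⟨g, hg⟩ := g
  have hg' := (gamma0_mem_iff_dvd M).mp hg
  obtain ⟨c', hc'⟩ := hg'
  have : NeZero p := ⟨hp.out.ne_zero⟩
  by_cases hc : (p : ℤ) ∣ c'
  · refine ⟨none, ?_⟩
    rw [gamma0_mem_iff_dvd, mul_inv_apply_one_zero]
    simp only [newRep, OneMemClass.coe_one, Matrix.SpecialLinearGroup.coe_one,
      Matrix.one_apply_ne, Matrix.one_apply_eq, ne_eq, one_ne_zero,
      not_false_eq_true, zero_mul, one_mul, zero_sub]
    rw [hc', dvd_neg]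
    push_cast
    exact mul_dvd_mul_left _ hc
  · have hcz : (c' : ZMod p) ≠ 0 := by
      rwa [Ne, ZMod.intCast_zmod_eq_zero_iff_dvd]
    have hMz : ((M : ℤ) : ZMod p) ≠ 0 := by
      rw [Ne, ZMod.intCast_zmod_eq_zero_iff_dvd]
      exact fun h => hpM (Int.natCast_dvd_natCast.mp h)
    set j : ZMod p := ((g 1 1 : ℤ) : ZMod p) * (((M : ℤ) : ZMod p) * (c' : ZMod p))⁻¹ with hj
    refine ⟨some ⟨j.val, ZMod.val_lt j⟩, ?_⟩
    rw [gamma0_mem_iff_dvd, mul_inv_apply_one_zero]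
    simp only [newRep, coe_newMat, Matrix.of_apply, Matrix.cons_val', Matrix.cons_val_one,
      Matrix.cons_val_zero, Matrix.cons_val_fin_one]
    have h1 : (M : ℤ) * g 1 1 - (M * (j.val : ℕ) + p) * g 1 0 =
        M * (g 1 1 - (M * (j.val : ℕ) + p) * c') := by
      rw [hc']; ring
    rw [h1]
    push_cast
    apply mul_dvd_mul_left
    rw [← ZMod.intCast_zmod_eq_zero_iff_dvd]
    push_cast
    rw [ZMod.natCast_zmod_val, ZMod.natCast_self, add_zero, hj]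
    have hMc : ((M : ℤ) : ZMod p) * (c' : ZMod p) ≠ 0 := mul_ne_zero hMz hcz
    have : ((M : ℤ) : ZMod p) * (((g 1 1 : ℤ) : ZMod p) * (((M : ℤ) : ZMod p) * (c' : ZMod p))⁻¹)
        * (c' : ZMod p) = ((g 1 1 : ℤ) : ZMod p) := by
      field_simp
    simp only [Int.cast_natCast] at this ⊢
    rw [this, sub_self]

/-! ### The trace formulas -/

section traceLow

variable (M p : ℕ) [NeZero M] [NeZero p] (hpM : p ∣ M) {k : ℤ}
  [hfin : (Gamma0 (M * p) : Subgroup (GL (Fin 2) ℝ)).IsFiniteRelIndex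
    (Gamma0 M : Subgroup (GL (Fin 2) ℝ))]

include hpM

/-- **Trace formula, `p ∣ M`** (slash invariant forms):
`Tr^{Mp}_M f = ∑_{j<p} f ∣[k] [1, 0; M j, 1]`. -/
theorem SIF_coe_trace_eq_sum_lowRep {F : Type*} [FunLike F ℍ ℂ]
    [SlashInvariantFormClass F (Gamma0 (M * p) : Subgroup (GL (Fin 2) ℝ)) k] (f : F) :
    (⇑(SlashInvariantForm.trace (Gamma0 M : Subgroup (GL (Fin 2) ℝ)) f) : ℍ → ℂ) =
      ∑ j ∈ Finset.range p, (⇑f : ℍ → ℂ) ∣[k] (mapGL ℝ (lowerUni (M * (j : ℕ)))) := by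
  let _ : Fintype (Cosets (M * p) M) := Fintype.ofFinite _
  rw [SlashInvariantForm.coe_trace]
  rw [sum_quotientFunc_eq_sum_reps (M * p) M (lowRep M p) (lowRep_inj M p)
    (lowRep_surj M p hpM) f]
  rw [← Fin.sum_univ_eq_sum_range
    (fun j => (⇑f : ℍ → ℂ) ∣[k] (mapGL ℝ (lowerUni (M * (j : ℕ)))))]
  rfl

theorem MF_coe_trace_eq_sum_lowRep {F : Type*} [FunLike F ℍ ℂ]
    [ModularFormClass F (Gamma0 (M * p) : Subgroup (GL (Fin 2) ℝ)) k] (f : F) :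
    (⇑(ModularForm.trace (Gamma0 M : Subgroup (GL (Fin 2) ℝ)) f) : ℍ → ℂ) =
      ∑ j ∈ Finset.range p, (⇑f : ℍ → ℂ) ∣[k] (mapGL ℝ (lowerUni (M * (j : ℕ)))) :=
  SIF_coe_trace_eq_sum_lowRep M p hpM f

theorem CF_coe_trace_eq_sum_lowRep {F : Type*} [FunLike F ℍ ℂ]
    [CuspFormClass F (Gamma0 (M * p) : Subgroup (GL (Fin 2) ℝ)) k] (f : F) :
    (⇑(CuspForm.trace (Gamma0 M : Subgroup (GL (Fin 2) ℝ)) f) : ℍ → ℂ) =
      ∑ j ∈ Finset.range p, (⇑f : ℍ → ℂ) ∣[k] (mapGL ℝ (lowerUni (M * (j : ℕ)))) :=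
  SIF_coe_trace_eq_sum_lowRep M p hpM f

end traceLow

section traceNew

variable (M p : ℕ) [hp : Fact p.Prime] (hpM : ¬ p ∣ M) (x y : ℤ)
  (hxy : (p : ℤ) * x - M * y = 1) {k : ℤ}
  [hfin : (Gamma0 (M * p) : Subgroup (GL (Fin 2) ℝ)).IsFiniteRelIndex
    (Gamma0 M : Subgroup (GL (Fin 2) ℝ))]

include hpM

/-- **Trace formula, `p ∤ M` prime** (slash invariant forms):
`Tr^{Mp}_M f = f + ∑_{j<p} f ∣[k] [x, x j + y; M, M j + p]`. -/
theorem SIF_coe_trace_eq_sum_newRep {F : Type*} [FunLike F ℍ ℂ]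
    [SlashInvariantFormClass F (Gamma0 (M * p) : Subgroup (GL (Fin 2) ℝ)) k] (f : F) :
    (⇑(SlashInvariantForm.trace (Gamma0 M : Subgroup (GL (Fin 2) ℝ)) f) : ℍ → ℂ) =
      ⇑f + ∑ j ∈ Finset.range p,
        (⇑f : ℍ → ℂ) ∣[k] (mapGL ℝ (newMat M p x y hxy (j : ℕ))) := by
  let _ : Fintype (Cosets (M * p) M) := Fintype.ofFinite _
  rw [SlashInvariantForm.coe_trace]
  rw [sum_quotientFunc_eq_sum_reps (M * p) M (newRep M p x y hxy)
    (newRep_inj M p hpM x y hxy) (newRep_surj M p hpM x y hxy) f]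
  rw [Fintype.sum_option]
  congr 1
  · show (⇑f : ℍ → ℂ) ∣[k] (mapGL ℝ (1 : SL(2, ℤ))) = _
    simp
  · rw [← Fin.sum_univ_eq_sum_range
      (fun j => (⇑f : ℍ → ℂ) ∣[k] (mapGL ℝ (newMat M p x y hxy (j : ℕ))))]
    rfl

theorem MF_coe_trace_eq_sum_newRep {F : Type*} [FunLike F ℍ ℂ]
    [ModularFormClass F (Gamma0 (M * p) : Subgroup (GL (Fin 2) ℝ)) k] (f : F) :
    (⇑(ModularForm.trace (Gamma0 M : Subgroup (GL (Fin 2) ℝ)) f) : ℍ → ℂ) =
      ⇑f + ∑ j ∈ Finset.range p,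
        (⇑f : ℍ → ℂ) ∣[k] (mapGL ℝ (newMat M p x y hxy (j : ℕ))) :=
  SIF_coe_trace_eq_sum_newRep M p hpM x y hxy f

theorem CF_coe_trace_eq_sum_newRep {F : Type*} [FunLike F ℍ ℂ]
    [CuspFormClass F (Gamma0 (M * p) : Subgroup (GL (Fin 2) ℝ)) k] (f : F) :
    (⇑(CuspForm.trace (Gamma0 M : Subgroup (GL (Fin 2) ℝ)) f) : ℍ → ℂ) =
      ⇑f + ∑ j ∈ Finset.range p,
        (⇑f : ℍ → ℂ) ∣[k] (mapGL ℝ (newMat M p x y hxy (j : ℕ))) :=
  SIF_coe_trace_eq_sum_newRep M p hpM x y hxy f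

end traceNew

end Fermat.Agent.Lib.Newform.H623
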