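import Fermat.Agent.Lib.Newform.H623.Raise
import Fermat.Agent.Lib.Newform.H563.LowerU
import Fermat.Agent.Lib.Newform.H958.Leaves

/-!
# NEWFORM lib (helper623), part 5: the predicate "`F` is a weight-2 cusp form of level `N`"

`IsCF N F : Prop := ∃ G : CuspForm (Gamma0 N) 2, ⇑G = F`, with its closure properties under
the function-level operators: sums, scalars, level inclusion, `∣ diag(q,1)` (raise), `U_p`,
`U_p` with level lowering (`p² ∣ N`), the Atkin–Lehner trace `F ∣ A + U_p F` (`p ∥ N`),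
and the coset-sum trace from `Γ₀(M p)` to `Γ₀(M)` (`p ∣ M`).
-/

set_option autoImplicit false
set_option linter.unusedSectionVars false

namespace Fermat.Agent.Lib.Newform.H623

open UpperHalfPlane ModularForm Matrix.SpecialLinearGroup SlashInvariantForm CongruenceSubgroup
open ModularFormClass
open scoped MatrixGroups ModularForm Manifold
open Fermat.Agent.Lib.Newform.H923 (InvUnder IsAL)

/-- `F` is (the function of) a weight-2 cusp form of level `N`. -/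
def IsCF (N : ℕ) (F : ℍ → ℂ) : Prop :=
  ∃ G : CuspForm (Gamma0 N) 2, (⇑G : ℍ → ℂ) = F

theorem isCF_coe {N : ℕ} (G : CuspForm (Gamma0 N) 2) : IsCF N (⇑G) := ⟨G, rfl⟩

theorem IsCF.zero (N : ℕ) : IsCF N 0 := ⟨0, rfl⟩

theorem IsCF.add {N : ℕ} {F G : ℍ → ℂ} (hF : IsCF N F) (hG : IsCF N G) : IsCF N (F + G) := by
  obtain ⟨f, rfl⟩ := hF
  obtain ⟨g, rfl⟩ := hG
  exact ⟨f + g, rfl⟩

theorem IsCF.sub {N : ℕ} {F G : ℍ → ℂ} (hF : IsCF N F) (hG : IsCF N G) : IsCF N (F - G) := by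
  obtain ⟨f, rfl⟩ := hF
  obtain ⟨g, rfl⟩ := hG
  exact ⟨f - g, rfl⟩

theorem IsCF.smul {N : ℕ} {F : ℍ → ℂ} (c : ℂ) (hF : IsCF N F) : IsCF N (c • F) := by
  obtain ⟨f, rfl⟩ := hF
  exact ⟨c • f, rfl⟩

theorem IsCF.sum {N : ℕ} {ι : Type*} (s : Finset ι) (F : ι → ℍ → ℂ)
    (h : ∀ i ∈ s, IsCF N (F i)) : IsCF N (∑ i ∈ s, F i) := by
  classical
  induction s using Finset.induction_on with
  | empty => simpa using IsCF.zero N
  | insert a s ha ih =>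
    rw [Finset.sum_insert ha]
    exact (h a (Finset.mem_insert_self _ _)).add
      (ih fun i hi => h i (Finset.mem_insert_of_mem hi))

theorem IsCF.invUnder {N : ℕ} {F : ℍ → ℂ} (hF : IsCF N F) : InvUnder N 2 F := by
  obtain ⟨f, rfl⟩ := hF
  exact H923.invUnder_of_slashInvariantFormClass f

theorem IsCF.gamma0Inv {N : ℕ} {F : ℍ → ℂ} (hF : IsCF N F) : Gamma0Inv N 2 F :=
  gamma0Inv_iff_invUnder.mpr hF.invUnder

theorem IsCF.of_dvd {M N : ℕ} (h : M ∣ N) {F : ℍ → ℂ} (hF : IsCF M F) : IsCF N F := by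
  obtain ⟨f, rfl⟩ := hF
  exact H958.incl M N h f

theorem IsCF.of_eq {M N : ℕ} (h : M = N) {F : ℍ → ℂ} (hF : IsCF M F) : IsCF N F := h ▸ hF

theorem IsCF.raise {M : ℕ} (q : ℕ) [NeZero q] {F : ℍ → ℂ} (hF : IsCF M F) :
    IsCF (M * q) (F ∣[(2 : ℤ)] heckeDiagMatrix q) := by
  obtain ⟨f, rfl⟩ := hF
  exact ⟨raiseForm M q f, rfl⟩

theorem IsCF.map_heckeU {N p : ℕ} [NeZero N] (hpN : p ∣ N) {F : ℍ → ℂ} (hF : IsCF N F) :
    IsCF N (heckeU 2 p F) := by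
  obtain ⟨f, rfl⟩ := hF
  exact ⟨CuspForm.heckeULin 2 hpN f, rfl⟩

theorem IsCF.map_heckeU_lower {N p : ℕ} [NeZero N] (hp : p.Prime) (hp2 : p ^ 2 ∣ N) {F : ℍ → ℂ}
    (hF : IsCF N F) : IsCF (N / p) (heckeU 2 p F) := by
  obtain ⟨f, rfl⟩ := hF
  exact H563.lowerU N p hp hp2 f

theorem IsCF.traceAL {p M : ℕ} [NeZero (p * M)] (hp : p.Prime) {A : GL (Fin 2) ℝ}
    (hA : IsAL p M A) {F : ℍ → ℂ} (hF : IsCF (p * M) F) :
    IsCF M (F ∣[(2 : ℤ)] A + heckeU 2 p F) := by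
  obtain ⟨f, rfl⟩ := hF
  have hp0 : p ≠ 0 := hp.ne_zero
  have hM0 : M ≠ 0 := fun h => NeZero.ne (p * M) (by rw [h, mul_zero])
  have : NeZero M := ⟨hM0⟩
  have hpN : p ∣ p * M := Dvd.intro _ rfl
  have hinv : InvUnder M 2 ⇑(H923.alLin 2 hp0 hA f + CuspForm.heckeULin 2 hpN f) := by
    have h1 := H923.invUnder_slash_AL_add_heckeU 2 hp
      (H923.invUnder_of_slashInvariantFormClass f) hA
    rw [FunLike.coe_add, CuspForm.coe_heckeULin_apply, H923.coe_alLin]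
    exact h1
  refine ⟨H923.descendCusp 2 _ hinv, ?_⟩
  rw [H923.coe_descendCusp, FunLike.coe_add, CuspForm.coe_heckeULin_apply, H923.coe_alLin]

theorem IsCF.trLow {M p : ℕ} [NeZero M] [NeZero p] (hpM : p ∣ M) {F : ℍ → ℂ}
    (hF : IsCF (M * p) F) :
    IsCF M (∑ j ∈ Finset.range p, F ∣[(2 : ℤ)] (mapGL ℝ (lowerUni (M * (j : ℕ))))) := by
  obtain ⟨G, rfl⟩ := hF
  have : NeZero (M * p) := ⟨Nat.mul_ne_zero (NeZero.ne M) (NeZero.ne p)⟩
  have := isFiniteRelIndex_gamma0 (M * p) M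
  exact ⟨CuspForm.trace (Gamma0 M : Subgroup (GL (Fin 2) ℝ)) G,
    CF_coe_trace_eq_sum_lowRep M p hpM G⟩

/-! ### `q`-coefficients -/

theorem IsCF.qCoeff_sub {N : ℕ} {F G : ℍ → ℂ} (hF : IsCF N F) (hG : IsCF N G) (n : ℕ) :
    qCoeff (F - G) n = qCoeff F n - qCoeff G n := by
  obtain ⟨f, rfl⟩ := hF
  obtain ⟨g, rfl⟩ := hG
  exact H683.qCoeff_sub_cusp 2 f g n

theorem IsCF.qCoeff_smul {N : ℕ} {F : ℍ → ℂ} (c : ℂ) (hF : IsCF N F) (n : ℕ) :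
    qCoeff (c • F) n = c * qCoeff F n := by
  obtain ⟨f, rfl⟩ := hF
  exact H683.qCoeff_smul_cusp 2 c f n

theorem IsCF.qCoeff_raise {M : ℕ} (q : ℕ) [NeZero q] {F : ℍ → ℂ} (hF : IsCF M F) (n : ℕ) :
    qCoeff (F ∣[(2 : ℤ)] heckeDiagMatrix q) n =
      if q ∣ n then (q : ℂ) * qCoeff F (n / q) else 0 := by
  obtain ⟨f, rfl⟩ := hF
  have := qCoeff_raiseForm M q f n
  rw [coe_raiseForm] at this
  rw [this]
  norm_num

theorem IsCF.qCoeff_heckeU {N : ℕ} {p : ℕ} (hp : p ≠ 0) {F : ℍ → ℂ} (hF : IsCF N F) (n : ℕ) :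
    qCoeff (heckeU 2 p F) n = qCoeff F (n * p) := by
  obtain ⟨f, rfl⟩ := hF
  rw [H683.qCoeff_heckeU_cusp 2 f hp n, coeffHeckeU_apply]

theorem IsCF.eq_zero_of_qCoeff {N : ℕ} {F : ℍ → ℂ} (hF : IsCF N F)
    (h : ∀ n, qCoeff F n = 0) : F = 0 := by
  obtain ⟨f, rfl⟩ := hF
  rw [H683.cusp_eq_zero_of_qCoeff 2 f h]
  rfl

/-- The form `F - p⁻¹ • (U_p F) ∣ diag(p,1)`, i.e. `F` with the coefficients `a_n`, `p ∣ n`,
removed. -/
theorem IsCF.qCoeff_sub_raise_heckeU {C' p : ℕ} [NeZero p] {F : ℍ → ℂ}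
    (hF : IsCF (C' * p) F) (hu : IsCF C' (heckeU 2 p F)) (n : ℕ) :
    qCoeff (F - (p : ℂ)⁻¹ • ((heckeU 2 p F) ∣[(2 : ℤ)] heckeDiagMatrix p)) n =
      if p ∣ n then 0 else qCoeff F n := by
  have hp : p ≠ 0 := NeZero.ne p
  have hp' : (p : ℂ) ≠ 0 := by exact_mod_cast hp
  rw [hF.qCoeff_sub ((hu.raise p).smul _), (hu.raise p).qCoeff_smul, hu.qCoeff_raise p]
  split_ifs with h
  · rw [hF.qCoeff_heckeU hp, Nat.div_mul_cancel h]
    field_simp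
    ring
  · simp

end Fermat.Agent.Lib.Newform.H623
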