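import Fermat.Agent.Lib.Newform.H623.Trace
import Fermat.Agent.Lib.Newform.H923.TraceALProof
import Fermat.Prelude.Thm_ModularForm_heckeU_slash_eq_self_of_mem_Gamma0

/-!
# NEWFORM lib (helper623), part 3: the key identity for the `p ∥ N` step of the main lemma

For `f` invariant under `Γ₀(p M)` (weight 2, `p` prime, `p ∤ M`) and an Atkin–Lehner matrix `A`:

`(U_p ((U_p f) ∣ A⁻¹)) ∣ A = f + (p - 1) • ((f ∣ A + U_p f) ∣ diag(p,1))`.

Together with (T2), (T4) this gives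
`Tr^{Np}_N (f - p⁻¹ • (U_p f) ∣ diag(p,1)) = (p - p⁻¹) • f - (1 - p⁻¹) • (f ∣ A + U_p f) ∣ diag(p,1)`.
-/

set_option autoImplicit false
set_option linter.unusedSectionVars false

namespace Fermat.Agent.Lib.Newform.H623

open UpperHalfPlane ModularForm Matrix.SpecialLinearGroup SlashInvariantForm CongruenceSubgroup
open scoped MatrixGroups ModularForm Manifold
open Fermat.Agent.Lib.Newform.H923 (InvUnder IsAL IsInt)

theorem gamma0Inv_iff_invUnder {N : ℕ} {k : ℤ} {f : ℍ → ℂ} :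
    Gamma0Inv N k f ↔ InvUnder N k f := by
  constructor
  · rintro h _ ⟨γ, hγ, rfl⟩
    exact h γ hγ
  · intro h γ hγ
    exact h _ (Subgroup.mem_map_of_mem _ hγ)

/-- The entries of an Atkin–Lehner matrix, in the shape used in `Trace.lean`. -/
theorem exists_coe_of_isAL {p M : ℕ} {A : GL (Fin 2) ℝ} (hA : IsAL p M A) :
    ∃ a b c d : ℤ,
      (A : Matrix (Fin 2) (Fin 2) ℝ) = !![(p : ℝ) * a, b; (M : ℝ) * p * c, (p : ℝ) * d] ∧
      (p : ℤ) * a * d - M * b * c = 1 := by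
  obtain ⟨a, b, c, d, hInt, h⟩ := hA
  refine ⟨a, b, c, d, ?_, h⟩
  unfold IsInt at hInt
  rw [hInt]
  refine mat_fin_two_ext ?_ ?_ ?_ ?_ <;> push_cast <;> ring

variable {p M : ℕ} {A : GL (Fin 2) ℝ}

/-- (d): `U_p (H ∣ A) = p • H` for `H` of level `M` (weight 2). -/
theorem heckeU_slash_AL_of_invUnder (hp : p ≠ 0) (hA : IsAL p M A) {H : ℍ → ℂ}
    (hH : InvUnder M 2 H) : heckeU 2 p (H ∣[(2 : ℤ)] A) = (p : ℂ) • H := by
  obtain ⟨a, b, c, d, hcoe, hdet⟩ := exists_coe_of_isAL hA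
  rw [heckeU_def]
  have h : ∀ j ∈ Finset.range p, (H ∣[(2 : ℤ)] A) ∣[(2 : ℤ)] heckeMatrix p j = H := by
    intro j _
    rw [← SlashAction.slash_mul,
      slash_eq_of_val_eq_smul 2 H _ _ p hp (al_mul_heckeMatrix M p hp A a b c d hcoe hdet j)]
    have hmem : alBeta M p a b c d hdet j ∈ Gamma0 M := by
      rw [gamma0_mem_iff_dvd]
      exact ⟨c, by simp⟩
    rw [hH _ (Subgroup.mem_map_of_mem _ hmem)]
    simp
  rw [Finset.sum_congr rfl h]
  simp [Finset.sum_const, Finset.card_range, Nat.cast_smul_eq_nsmul]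

/-- (e): `H ∣ A = H ∣ diag(p,1)` for `H` of level `M`. -/
theorem slash_AL_eq_slash_heckeDiag (k : ℤ) (hp : p ≠ 0) (hA : IsAL p M A) {H : ℍ → ℂ}
    (hH : InvUnder M k H) : H ∣[k] A = H ∣[k] heckeDiagMatrix p := by
  obtain ⟨a, b, c, d, hcoe, hdet⟩ := exists_coe_of_isAL hA
  let γ : SL(2, ℤ) := ⟨!![a, b; (M : ℤ) * c, p * d], by
    rw [Matrix.det_fin_two_of]; linear_combination hdet⟩
  have hγ : (γ : Matrix (Fin 2) (Fin 2) ℤ) = !![a, b; (M : ℤ) * c, p * d] := rfl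
  have hmem : γ ∈ Gamma0 M := by
    rw [gamma0_mem_iff_dvd]
    exact ⟨c, rfl⟩
  have hAγ : A = mapGL ℝ γ * heckeDiagMatrix p := by
    apply Units.ext
    rw [Units.val_mul, hcoe, val_heckeDiagMatrix hp, val_mapGL_of_coe hγ, Matrix.mul_fin_two]
    refine mat_fin_two_ext ?_ ?_ ?_ ?_ <;> push_cast <;> ring
  rw [hAγ, SlashAction.slash_mul, hH _ (Subgroup.mem_map_of_mem _ hmem)]

/-- On `Γ₀(p M)`-invariant functions (weight 2), `∣ A⁻¹ = ∣ A`. -/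
theorem slash_AL_inv (hp : p ≠ 0) (hA : IsAL p M A) {F : ℍ → ℂ}
    (hF : InvUnder (p * M) 2 F) : F ∣[(2 : ℤ)] A⁻¹ = F ∣[(2 : ℤ)] A := by
  conv_lhs => rw [← H923.slash_AL_slash_AL hp hF hA]
  rw [← SlashAction.slash_mul, mul_inv_cancel, SlashAction.slash_one]

theorem invUnder_heckeU {N p : ℕ} (k : ℤ) (hpN : p ∣ N) {f : ℍ → ℂ} (hf : InvUnder N k f) :
    InvUnder N k (heckeU k p f) :=
  fun γ hγ => ModularForm.heckeU_slash_eq_self_of_mem_Gamma0 k hpN hf γ hγ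

/-- **Key identity** for the `p ∥ N` step of the Atkin–Lehner main lemma. -/
theorem key_identity (hp : p.Prime) (hA : IsAL p M A) {f : ℍ → ℂ}
    (hf : InvUnder (p * M) 2 f) :
    (heckeU 2 p ((heckeU 2 p f) ∣[(2 : ℤ)] A⁻¹)) ∣[(2 : ℤ)] A =
      f + ((p : ℂ) - 1) • ((f ∣[(2 : ℤ)] A + heckeU 2 p f) ∣[(2 : ℤ)] heckeDiagMatrix p) := by
  have hp0 : p ≠ 0 := hp.ne_zero
  have hG : InvUnder (p * M) 2 (f ∣[(2 : ℤ)] A) := H923.slash_AL_invariant hf hA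
  have hT : InvUnder M 2 (f ∣[(2 : ℤ)] A + heckeU 2 p f) :=
    H923.invUnder_slash_AL_add_heckeU 2 hp hf hA
  have hU : InvUnder (p * M) 2 (heckeU 2 p f) := invUnder_heckeU 2 (dvd_mul_right p M) hf
  have hGA : (f ∣[(2 : ℤ)] A) ∣[(2 : ℤ)] A = f := H923.slash_AL_slash_AL hp0 hf hA
  set G := f ∣[(2 : ℤ)] A with hGdef
  set T := G + heckeU 2 p f with hTdef
  have hUT : heckeU 2 p f = T - G := by rw [hTdef]; abel
  -- `(U_p f) ∣ A⁻¹ = T ∣ A - f`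
  have h1 : (heckeU 2 p f) ∣[(2 : ℤ)] A⁻¹ = T ∣[(2 : ℤ)] A - f := by
    rw [slash_AL_inv hp0 hA hU, hUT, sub_eq_add_neg, SlashAction.add_slash,
      SlashAction.neg_slash, ← sub_eq_add_neg, hGA]
  -- `U_p (T ∣ A - f) = (p - 1) • T + G`
  have h2 : heckeU 2 p (T ∣[(2 : ℤ)] A - f) = ((p : ℂ) - 1) • T + G := by
    rw [heckeU_sub, heckeU_slash_AL_of_invUnder hp0 hA hT, hUT, sub_smul, one_smul]
    abel
  rw [h1, h2, SlashAction.add_slash, hGA, ModularForm.smul_slash,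
    slash_AL_eq_slash_heckeDiag 2 hp0 hA hT, H923.IsAL.σ_eq hp0 hA, add_comm]
  rfl

end Fermat.Agent.Lib.Newform.H623
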