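import Fermat.Agent.Lib.Newform.H623.IsCF

/-!
# NEWFORM lib (helper623), part 6: the Atkin–Lehner MAIN LEMMA (Petersson-free)

`isOld_of_qCoeff`: let `L` be a finite set of primes dividing `N ≠ 0` and `F` a weight-2 cusp form
of level `N` with `a_n(F) = 0` whenever no prime of `L` divides `n`.  Then
`F = ∑_{q ∈ L} g_q ∣ diag(q,1)` with `g_q` a cusp form of level `N / q`.

Proof (route of `origin/helper83:coord/NEWFORM_H83_route.md`): induction on `L`, for all `N`
simultaneously.  For `p ∈ L`: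
* `p² ∣ N`: `U_p F` has level `N / p`; apply the induction hypothesis to
  `F - p⁻¹ • (U_p F) ∣ diag(p,1)` at level `N`.
* `p ∥ N`: apply the induction hypothesis at level `N p` and take the trace down to level `N`,
  using (T2), (T3), (T4) and the key identity.
-/

set_option autoImplicit false
set_option linter.unusedSectionVars false

namespace Fermat.Agent.Lib.Newform.H623

open UpperHalfPlane ModularForm Matrix.SpecialLinearGroup SlashInvariantForm CongruenceSubgroup
open ModularFormClass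
open scoped MatrixGroups ModularForm Manifold
open Fermat.Agent.Lib.Newform.H923 (InvUnder IsAL)

/-- The function-level trace from `Γ₀(N p)` to `Γ₀(N)` (for `p ∣ N`). -/
noncomputable def trLow (N p : ℕ) (F : ℍ → ℂ) : ℍ → ℂ :=
  ∑ j ∈ Finset.range p, F ∣[(2 : ℤ)] (mapGL ℝ (lowerUni ((N : ℤ) * (j : ℕ))))

theorem trLow_sub (N p : ℕ) (F G : ℍ → ℂ) : trLow N p (F - G) = trLow N p F - trLow N p G := by
  simp only [trLow, sub_eq_add_neg, SlashAction.add_slash, SlashAction.neg_slash,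
    Finset.sum_add_distrib, Finset.sum_neg_distrib]

theorem trLow_smul (N p : ℕ) (c : ℂ) (F : ℍ → ℂ) : trLow N p (c • F) = c • trLow N p F := by
  simp only [trLow, Finset.smul_sum]
  refine Finset.sum_congr rfl fun j _ => ?_
  exact SL_smul_slash 2 _ F c

theorem trLow_sum (N p : ℕ) {ι : Type*} (s : Finset ι) (F : ι → ℍ → ℂ) :
    trLow N p (∑ i ∈ s, F i) = ∑ i ∈ s, trLow N p (F i) := by
  simp only [trLow, SlashAction.sum_slash]
  exact Finset.sum_comm

theorem smul_slash_heckeDiag (c : ℂ) (F : ℍ → ℂ) (q : ℕ) :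
    (c • F) ∣[(2 : ℤ)] heckeDiagMatrix q = c • (F ∣[(2 : ℤ)] heckeDiagMatrix q) := by
  rw [ModularForm.smul_slash, σ_heckeDiagMatrix]
  rfl

/-- `F` is a sum of `g_q ∣ diag(q,1)`, `q ∈ L`, with `g_q` a cusp form of level `N / q`. -/
def IsOld (N : ℕ) (L : Finset ℕ) (F : ℍ → ℂ) : Prop :=
  ∃ g : ℕ → ℍ → ℂ, (∀ q ∈ L, IsCF (N / q) (g q)) ∧
    F = ∑ q ∈ L, (g q) ∣[(2 : ℤ)] heckeDiagMatrix q

theorem isOld_insert {N p : ℕ} {L' : Finset ℕ} (hpL' : p ∉ L') {F gp rest : ℍ → ℂ}
    (hgp : IsCF (N / p) gp) (hrest : IsOld N L' rest)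
    (hF : F = rest + gp ∣[(2 : ℤ)] heckeDiagMatrix p) : IsOld N (insert p L') F := by
  classical
  obtain ⟨g, hg, rfl⟩ := hrest
  refine ⟨fun q => if q = p then gp else g q, ?_, ?_⟩
  · intro q hq
    rcases Finset.mem_insert.mp hq with rfl | hq'
    · simpa using hgp
    · have : q ≠ p := fun h => hpL' (h ▸ hq')
      simpa [this] using hg q hq'
  · rw [hF, Finset.sum_insert hpL', add_comm]
    congr 1
    · simp
    · refine Finset.sum_congr rfl fun q hq => ?_
      have : q ≠ p := fun h => hpL' (h ▸ hq)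
      simp [this]

/-- **Atkin–Lehner main lemma**, function-level form. -/
theorem isOld_of_qCoeff (L : Finset ℕ) :
    (∀ q ∈ L, q.Prime) → ∀ (N : ℕ), N ≠ 0 → (∀ q ∈ L, q ∣ N) → ∀ F : ℍ → ℂ, IsCF N F →
      (∀ n, (∀ q ∈ L, ¬ q ∣ n) → qCoeff F n = 0) → IsOld N L F := by
  classical
  induction L using Finset.induction_on with
  | empty =>
    intro _ N _ _ F hF hcoef
    have : F = 0 := hF.eq_zero_of_qCoeff (fun n => hcoef n (by simp))
    exact ⟨fun _ => 0, by simp, by simp [this]⟩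
  | insert p L' hpL' ih =>
    intro hL N hN hdvd F hF hcoef
    have hp : p.Prime := hL p (Finset.mem_insert_self _ _)
    have hL' : ∀ q ∈ L', q.Prime := fun q hq => hL q (Finset.mem_insert_of_mem hq)
    have hpN : p ∣ N := hdvd p (Finset.mem_insert_self _ _)
    have hdvd' : ∀ q ∈ L', q ∣ N := fun q hq => hdvd q (Finset.mem_insert_of_mem hq)
    have : NeZero p := ⟨hp.ne_zero⟩
    have : NeZero N := ⟨hN⟩
    have hp' : (p : ℂ) ≠ 0 := by exact_mod_cast hp.ne_zero
    -- coefficient vanishing for `g = F - p⁻¹ • (U_p F) ∣ diag(p,1)` in both cases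
    have hvan : ∀ G : ℍ → ℂ, (∀ n, qCoeff G n = if p ∣ n then 0 else qCoeff F n) →
        ∀ n, (∀ q ∈ L', ¬ q ∣ n) → qCoeff G n = 0 := by
      intro G hG n hn
      rw [hG n]
      split_ifs with h
      · rfl
      · refine hcoef n (fun q hq => ?_)
        rcases Finset.mem_insert.mp hq with rfl | hq'
        · exact h
        · exact hn q hq'
    by_cases hp2 : p ^ 2 ∣ N
    · -- Case A: `p² ∣ N`
      have hu : IsCF (N / p) (heckeU 2 p F) := hF.map_heckeU_lower hp hp2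
      have hNp : N / p * p = N := Nat.div_mul_cancel hpN
      have hF' : IsCF (N / p * p) F := hF.of_eq hNp.symm
      have hgCF : IsCF N (F - (p : ℂ)⁻¹ • ((heckeU 2 p F) ∣[(2 : ℤ)] heckeDiagMatrix p)) :=
        hF.sub (((hu.raise p).smul _).of_eq hNp)
      have hgco := fun n => hF'.qCoeff_sub_raise_heckeU hu n
      have hold := ih hL' N hN hdvd' _ hgCF (hvan _ hgco)
      refine isOld_insert hpL' (hu.smul (p : ℂ)⁻¹) hold ?_
      rw [smul_slash_heckeDiag]
      abel
    · -- Case B: `p ∥ N`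
      obtain ⟨M, rfl⟩ : ∃ M, N = M * p := ⟨N / p, (Nat.div_mul_cancel hpN).symm⟩
      have hpM : ¬ p ∣ M := fun h => hp2 (by
        rw [pow_two]; exact Nat.mul_dvd_mul h (dvd_refl p))
      have hM0 : M ≠ 0 := fun h => hN (by rw [h, zero_mul])
      have hu : IsCF (M * p) (heckeU 2 p F) := hF.map_heckeU (Dvd.intro_left _ rfl)
      have hF2 : IsCF (M * p * p) F := hF.of_dvd (Dvd.intro _ rfl)
      have hgCF : IsCF (M * p * p)
          (F - (p : ℂ)⁻¹ • ((heckeU 2 p F) ∣[(2 : ℤ)] heckeDiagMatrix p)) :=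
        hF2.sub ((hu.raise p).smul _)
      have hgco := fun n => hF2.qCoeff_sub_raise_heckeU hu n
      have hdvd2 : ∀ q ∈ L', q ∣ M * p * p := fun q hq => (hdvd' q hq).mul_right p
      obtain ⟨gq, hgq, hgsum⟩ := ih hL' (M * p * p) (Nat.mul_ne_zero hN hp.ne_zero) hdvd2 _ hgCF
        (hvan _ hgco)
      -- an Atkin–Lehner matrix
      have hcop : Nat.Coprime p M := (Nat.Prime.coprime_iff_not_dvd hp).mpr hpM
      obtain ⟨A, hA⟩ := H923.exists_isAL hp.ne_zero hcop
      obtain ⟨a, b, c, d, hcoe, hdet⟩ := exists_coe_of_isAL hA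
      have hFinv : Gamma0Inv (M * p) 2 F := hF.gamma0Inv
      have hFinv' : InvUnder (p * M) 2 F := by rw [mul_comm]; exact hF.invUnder
      have huinv : Gamma0Inv (M * p) 2 (heckeU 2 p F) := hu.gamma0Inv
      have hT2 : trLow (M * p) p F = (p : ℂ) • F :=
        sum_slash_lowerUni_of_inv (M * p) p 2 F hFinv
      have hT4 : trLow (M * p) p ((heckeU 2 p F) ∣[(2 : ℤ)] heckeDiagMatrix p) =
          (heckeU 2 p ((heckeU 2 p F) ∣[(2 : ℤ)] A⁻¹)) ∣[(2 : ℤ)] A :=
        sum_slash_heckeDiag_lowerUni_eq M p 2 hp.ne_zero _ huinv A a b c d hcoe hdet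
      have hKI := key_identity hp hA hFinv'
      have : NeZero (p * M) := ⟨Nat.mul_ne_zero hp.ne_zero hM0⟩
      have hTCF : IsCF M (F ∣[(2 : ℤ)] A + heckeU 2 p F) :=
        IsCF.traceAL hp hA (hF.of_eq (mul_comm M p))
      -- the trace of `g`, computed in two ways
      have h1 : trLow (M * p) p (F - (p : ℂ)⁻¹ • ((heckeU 2 p F) ∣[(2 : ℤ)] heckeDiagMatrix p)) =
          (p : ℂ) • F - (p : ℂ)⁻¹ • (F + ((p : ℂ) - 1) •
            ((F ∣[(2 : ℤ)] A + heckeU 2 p F) ∣[(2 : ℤ)] heckeDiagMatrix p)) := by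
        rw [trLow_sub, trLow_smul, hT2, hT4, hKI]
      have h2 : trLow (M * p) p (F - (p : ℂ)⁻¹ • ((heckeU 2 p F) ∣[(2 : ℤ)] heckeDiagMatrix p)) =
          ∑ q ∈ L', (trLow (M * p / q) p (gq q)) ∣[(2 : ℤ)] heckeDiagMatrix q := by
        rw [hgsum, trLow_sum]
        refine Finset.sum_congr rfl fun q hq => ?_
        have hq' : q.Prime := hL' q hq
        have hqN : q ∣ M * p := hdvd' q hq
        have h3 := sum_slash_lowerUni_heckeDiag (M * p / q) p q 2 hq'.ne_zero (gq q)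
        rw [Nat.div_mul_cancel hqN] at h3
        exact h3
      have hhq : ∀ q ∈ L', IsCF (M * p / q) (trLow (M * p / q) p (gq q)) := by
        intro q hq
        have hq' : q.Prime := hL' q hq
        have hqN : q ∣ M * p := hdvd' q hq
        have hqp : q ≠ p := fun h => hpL' (h ▸ hq)
        have hqM : q ∣ M := ((Nat.Prime.dvd_mul hq').mp hqN).resolve_right
          (fun h => hqp ((Nat.prime_dvd_prime_iff_eq hq' hp).mp h))
        obtain ⟨M', rfl⟩ := hqM
        have e0 : q * M' * p / q = M' * p := by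
          rw [mul_assoc, Nat.mul_div_cancel_left _ hq'.pos]
        have e1 : q * M' * p * p / q = q * M' * p / q * p := by
          rw [e0, mul_assoc, mul_assoc, Nat.mul_div_cancel_left _ hq'.pos, mul_assoc]
        have hpM₀ : p ∣ q * M' * p / q := by rw [e0]; exact Dvd.intro_left _ rfl
        have hM'0 : M' ≠ 0 := fun h => hM0 (by rw [h, mul_zero])
        have : NeZero (q * M' * p / q) := ⟨by rw [e0]; exact Nat.mul_ne_zero hM'0 hp.ne_zero⟩
        exact IsCF.trLow hpM₀ ((hgq q hq).of_eq e1)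
      -- conclusion
      have hc : (p : ℂ) - (p : ℂ)⁻¹ ≠ 0 := by
        intro h
        have h4 : (p : ℂ) * p = 1 := by
          have := sub_eq_zero.mp h
          field_simp at this
          linear_combination this
        have h5 : (p * p : ℕ) = 1 := by exact_mod_cast h4
        have := Nat.eq_one_of_mul_eq_one_left h5
        exact hp.one_lt.ne' this
      set c₀ : ℂ := ((p : ℂ) - (p : ℂ)⁻¹)⁻¹ with hc₀
      set T := F ∣[(2 : ℤ)] A + heckeU 2 p F with hT
      have hFeq : F = (∑ q ∈ L', (c₀ • trLow (M * p / q) p (gq q)) ∣[(2 : ℤ)] heckeDiagMatrix q)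
          + ((c₀ * ((p : ℂ)⁻¹ * ((p : ℂ) - 1))) • T) ∣[(2 : ℤ)] heckeDiagMatrix p := by
        simp only [smul_slash_heckeDiag]
        rw [← Finset.smul_sum, ← h2, h1]
        have key : ((p : ℂ) - (p : ℂ)⁻¹) • F =
            ((p : ℂ) • F - (p : ℂ)⁻¹ • (F + ((p : ℂ) - 1) • T ∣[(2 : ℤ)] heckeDiagMatrix p)) +
              ((p : ℂ)⁻¹ * ((p : ℂ) - 1)) • T ∣[(2 : ℤ)] heckeDiagMatrix p := by
          ext τ
          simp only [Pi.add_apply, Pi.sub_apply, Pi.smul_apply, smul_eq_mul]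
          ring
        calc F = c₀ • (((p : ℂ) - (p : ℂ)⁻¹) • F) := (inv_smul_smul₀ hc F).symm
          _ = _ := by rw [key, smul_add, smul_smul]
      refine isOld_insert hpL' (gp := (c₀ * ((p : ℂ)⁻¹ * ((p : ℂ) - 1))) • T) ?_
        ⟨fun q => c₀ • trLow (M * p / q) p (gq q), fun q hq => (hhq q hq).smul c₀, rfl⟩ hFeq
      rw [Nat.mul_div_cancel M hp.pos]
      exact hTCF.smul _

theorem IsCF.qCoeff_add {N : ℕ} {F G : ℍ → ℂ} (hF : IsCF N F) (hG : IsCF N G) (n : ℕ) :
    qCoeff (F + G) n = qCoeff F n + qCoeff G n := by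
  obtain ⟨f, rfl⟩ := hF
  obtain ⟨g, rfl⟩ := hG
  exact H683.qCoeff_add_cusp 2 f g n

theorem qCoeff_zero_fun (n : ℕ) : qCoeff (0 : ℍ → ℂ) n = 0 := by
  have := (H683.coeffLin 1 2 n).map_zero
  rwa [H683.coeffLin_apply] at this

theorem IsCF.qCoeff_sum {N : ℕ} {ι : Type*} (s : Finset ι) (F : ι → ℍ → ℂ)
    (h : ∀ i ∈ s, IsCF N (F i)) (n : ℕ) :
    qCoeff (∑ i ∈ s, F i) n = ∑ i ∈ s, qCoeff (F i) n := by
  classical
  induction s using Finset.induction_on with
  | empty => simpa using qCoeff_zero_fun n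
  | insert a s ha ih =>
    have h' : ∀ i ∈ s, IsCF N (F i) := fun i hi => h i (Finset.mem_insert_of_mem hi)
    rw [Finset.sum_insert ha, Finset.sum_insert ha,
      (h a (Finset.mem_insert_self _ _)).qCoeff_add (IsCF.sum s F h'), ih h']

/-- **Atkin–Lehner MAIN LEMMA** in the shape of the NEWFORM interface (`H23.MainLemma`):
a cusp form of level `N` whose coefficients `a_n` vanish for all `n` prime to `N` is a sum of
`B_p g_p`, `g_p` of level `N / p`, over the primes `p ∣ N` (in `q`-coefficients). -/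
theorem mainLemma_qCoeff (N : ℕ) [NeZero N] (f : CuspForm (Gamma0 N) 2)
    (hf : ∀ n : ℕ, n.Coprime N → qCoeff f n = 0) :
    ∃ g : (p : ℕ) → CuspForm (Gamma0 (N / p)) 2, ∀ n : ℕ,
      qCoeff f n = ∑ p ∈ N.primeFactors, if p ∣ n then qCoeff (g p) (n / p) else 0 := by
  classical
  have hN : N ≠ 0 := NeZero.ne N
  have hprime : ∀ q ∈ N.primeFactors, q.Prime := fun q hq => Nat.prime_of_mem_primeFactors hq
  have hdvd : ∀ q ∈ N.primeFactors, q ∣ N := fun q hq => Nat.dvd_of_mem_primeFactors hq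
  have hvan : ∀ n, (∀ q ∈ N.primeFactors, ¬ q ∣ n) → qCoeff (⇑f) n = 0 := by
    intro n hn
    apply hf
    by_contra hcop
    obtain ⟨q, hq, hqn, hqN⟩ := Nat.Prime.not_coprime_iff_dvd.mp hcop
    exact hn q (Nat.mem_primeFactors.mpr ⟨hq, hqN, hN⟩) hqn
  obtain ⟨g, hg, hsum⟩ := isOld_of_qCoeff N.primeFactors hprime N hN hdvd (⇑f) (isCF_coe f) hvan
  have hg' : ∀ q, ∃ G : CuspForm (Gamma0 (N / q)) 2,
      q ∈ N.primeFactors → (⇑G : ℍ → ℂ) = (q : ℂ) • g q := by
    intro q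
    by_cases hq : q ∈ N.primeFactors
    · obtain ⟨G, hG⟩ := hg q hq
      exact ⟨(q : ℂ) • G, fun _ => by rw [← hG]; rfl⟩
    · exact ⟨0, fun h => absurd h hq⟩
  choose G hG using hg'
  refine ⟨G, ?_⟩
  intro n
  have hraise : ∀ q ∈ N.primeFactors, IsCF N ((g q) ∣[(2 : ℤ)] heckeDiagMatrix q) := by
    intro q hq
    have : NeZero q := ⟨(hprime q hq).ne_zero⟩
    exact ((hg q hq).raise q).of_eq (Nat.div_mul_cancel (hdvd q hq))
  rw [hsum, IsCF.qCoeff_sum _ _ hraise]
  refine Finset.sum_congr rfl fun q hq => ?_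
  have : NeZero q := ⟨(hprime q hq).ne_zero⟩
  rw [(hg q hq).qCoeff_raise q n]
  split_ifs with h
  · rw [hG q hq, (hg q hq).qCoeff_smul]
  · rfl

end Fermat.Agent.Lib.Newform.H623
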