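import Fermat.Agent.Lib.Newform.H623.KeyIdentity
import Fermat.Agent.Lib.Newform.H683.FinDim
import Fermat.Prelude.Sol.S_UpperHalfPlane_qCoeff_heckeT

/-!
# NEWFORM lib (helper623), part 4: the degeneracy map `g ↦ g ∣ diag(q,1)` on cusp forms

`raiseForm M q G : CuspForm (Gamma0 (M * q)) k` has underlying function `⇑G ∣[k] heckeDiagMatrix q`
(i.e. `q^(k-1) • G(q τ)`), and `a_n = q^(k-1) a_{n/q}(G)` if `q ∣ n`, `0` otherwise.
-/

set_option autoImplicit false
set_option linter.unusedSectionVars false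

noncomputable section

namespace Fermat.Agent.Lib.Newform.H623

open UpperHalfPlane ModularForm Matrix.SpecialLinearGroup SlashInvariantForm CongruenceSubgroup
open ModularFormClass ConjAct
open scoped MatrixGroups ModularForm Manifold Pointwise

theorem heckeDiagMatrix_mul_mapGL {q : ℕ} (hq : q ≠ 0) (g : SL(2, ℤ)) (e : ℤ)
    (he : g 1 0 = q * e) :
    ∃ g' : SL(2, ℤ), g' 1 0 = e ∧
      heckeDiagMatrix q * mapGL ℝ g = mapGL ℝ g' * heckeDiagMatrix q := by
  have hdet := sl_det_eq g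
  let g' : SL(2, ℤ) := ⟨!![g 0 0, q * g 0 1; e, g 1 1], by
    rw [Matrix.det_fin_two_of]
    linear_combination hdet + (g 0 1) * he⟩
  have hg' : (g' : Matrix (Fin 2) (Fin 2) ℤ) = !![g 0 0, q * g 0 1; e, g 1 1] := rfl
  have hg : (g : Matrix (Fin 2) (Fin 2) ℤ) = !![g 0 0, g 0 1; q * e, g 1 1] := by
    ext i j
    fin_cases i <;> fin_cases j <;> simp [he]
  refine ⟨g', rfl, ?_⟩
  apply Units.ext
  rw [Units.val_mul, Units.val_mul, val_heckeDiagMatrix hq, val_mapGL_of_coe hg,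
    val_mapGL_of_coe hg', Matrix.mul_fin_two, Matrix.mul_fin_two]
  refine mat_fin_two_ext ?_ ?_ ?_ ?_ <;> push_cast <;> ring

theorem gamma0_le_conj_heckeDiag (M : ℕ) {q : ℕ} (hq : q ≠ 0) :
    (Gamma0 (M * q) : Subgroup (GL (Fin 2) ℝ)) ≤
      toConjAct (heckeDiagMatrix q)⁻¹ • (Gamma0 M : Subgroup (GL (Fin 2) ℝ)) := by
  rintro _ ⟨g, hg, rfl⟩
  obtain ⟨e, he⟩ := (gamma0_mem_iff_dvd (M * q)).mp hg
  have he' : g 1 0 = q * (M * e) := by rw [he]; push_cast; ring
  obtain ⟨g', hg'1, hg'⟩ := heckeDiagMatrix_mul_mapGL hq g (M * e) he'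
  rw [Subgroup.mem_pointwise_smul_iff_inv_smul_mem, ← toConjAct_inv, inv_inv, toConjAct_smul, hg',
    mul_inv_cancel_right]
  refine Subgroup.mem_map_of_mem _ ?_
  rw [gamma0_mem_iff_dvd, hg'1]
  exact ⟨e, rfl⟩

/-- The degeneracy map `G ↦ G ∣[k] diag(q,1)` from level `M` to level `M q`. -/
def raiseForm (M q : ℕ) [NeZero q] {k : ℤ} (G : CuspForm (Gamma0 M) k) :
    CuspForm (Gamma0 (M * q)) k where
  toFun := (⇑G : ℍ → ℂ) ∣[k] heckeDiagMatrix q
  slash_action_eq' γ hγ :=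
    (CuspForm.translate G (heckeDiagMatrix q)).slash_action_eq' γ
      (gamma0_le_conj_heckeDiag M (NeZero.ne q) hγ)
  holo' := (CuspForm.translate G (heckeDiagMatrix q)).holo'
  zero_at_cusps' hc :=
    (CuspForm.translate G (heckeDiagMatrix q)).zero_at_cusps'
      (hc.mono (gamma0_le_conj_heckeDiag M (NeZero.ne q)))

@[simp] theorem coe_raiseForm (M q : ℕ) [NeZero q] {k : ℤ} (G : CuspForm (Gamma0 M) k) :
    (⇑(raiseForm M q G) : ℍ → ℂ) = (⇑G : ℍ → ℂ) ∣[k] heckeDiagMatrix q := rfl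

open P2MW.S_UpperHalfPlane_qCoeff_heckeT.M4cP1W2 in
/-- `q`-coefficients of `G ∣[k] diag(q,1)`. -/
theorem qCoeff_raiseForm (M q : ℕ) [NeZero q] {k : ℤ} (G : CuspForm (Gamma0 M) k) (n : ℕ) :
    qCoeff (⇑(raiseForm M q G)) n =
      if q ∣ n then (q : ℂ) ^ (k - 1) * qCoeff (⇑G) (n / q) else 0 := by
  have hq : q ≠ 0 := NeZero.ne q
  have h1 := CongruenceSubgroup.one_mem_strictPeriods_Gamma0 M
  have h1' := CongruenceSubgroup.one_mem_strictPeriods_Gamma0 (M * q)
  have hper : Function.Periodic (⇑G ∘ ofComplex) 1 :=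
    SlashInvariantFormClass.periodic_comp_ofComplex G h1
  have hhol := CuspFormClass.holo G
  have : Fact (IsCusp OnePoint.infty (Subgroup.map (mapGL ℝ) (Gamma0 M))) :=
    ⟨Subgroup.isCusp_of_mem_strictPeriods one_pos h1⟩
  have hbdd := ModularFormClass.bdd_at_infty G
  have hs : ∀ τ : ℍ, HasSum (fun m : ℕ ↦
      (if q ∣ m then (q : ℂ) ^ (k - 1) * qCoeff (⇑G) (m / q) else 0) •
        Function.Periodic.qParam 1 τ ^ m) ((⇑(raiseForm M q G) : ℍ → ℂ) τ) := by
    intro τ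
    have := hasSum_diag hq hper hhol hbdd k τ
    rw [coe_raiseForm, slash_heckeDiagMatrix_apply k hq]
    convert this using 2 with m
    split_ifs <;> simp
  have hcont : Continuous (⇑(raiseForm M q G) : ℍ → ℂ) :=
    (CuspFormClass.holo (raiseForm M q G)).continuous
  have han := ModularFormClass.analyticAt_cuspFunction_zero (raiseForm M q G) one_pos h1'
  exact (qExpansion_coeff_unique' hcont han hs n).symm

end Fermat.Agent.Lib.Newform.H623
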