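import Mathlib
import Fermat.Prelude.Def_ModularForm_HeckeOperator
import Fermat.Agent.Lib.Newform.H623.Cosets

/-!
# NEWFORM lib (helper623), part 2: trace identities (T1)–(T4)

Function-level identities between the explicit coset sums of `Cosets.lean`, the Prelude operator
`heckeU`, slashing with `heckeDiagMatrix` (`B_q` up to a scalar) and slashing with an
Atkin–Lehner matrix `A = [p a, b; M p c, p d]`, `p a d - M b c = 1`.
-/

set_option autoImplicit false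
set_option linter.unusedSectionVars false

namespace Fermat.Agent.Lib.Newform.H623

open UpperHalfPlane ModularForm Matrix.SpecialLinearGroup SlashInvariantForm CongruenceSubgroup
open scoped MatrixGroups ModularForm Manifold

/-! ### Slash-action helpers -/

/-- `f` is invariant under `Γ₀(N)` (function level). -/
def Gamma0Inv (N : ℕ) (k : ℤ) (f : ℍ → ℂ) : Prop :=
  ∀ γ ∈ Gamma0 N, f ∣[k] (mapGL ℝ γ) = f

theorem gamma0Inv_coe {N : ℕ} {k : ℤ} {F : Type*} [FunLike F ℍ ℂ]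
    [SlashInvariantFormClass F (Gamma0 N : Subgroup (GL (Fin 2) ℝ)) k] (f : F) :
    Gamma0Inv N k (⇑f) := fun _ hγ =>
  SlashInvariantFormClass.slash_action_eq f _ (Subgroup.mem_map_of_mem _ hγ)

theorem Gamma0Inv.of_dvd {M N : ℕ} {k : ℤ} {f : ℍ → ℂ} (hf : Gamma0Inv M k f) (h : M ∣ N) :
    Gamma0Inv N k f := fun γ hγ => hf γ (gamma0_le_of_dvd h hγ)

theorem Gamma0Inv.slash_eq {N : ℕ} {k : ℤ} {f : ℍ → ℂ} (hf : Gamma0Inv N k f)
    {g g' : SL(2, ℤ)} (h : g * g'⁻¹ ∈ Gamma0 N) :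
    f ∣[k] (mapGL ℝ g) = f ∣[k] (mapGL ℝ g') := by
  have : g = (g * g'⁻¹) * g' := by simp
  rw [this, map_mul, SlashAction.slash_mul, hf _ h]

/-- Slashing with a scalar matrix `c • 1`, `c > 0`, multiplies by `c^(k-2)`. -/
theorem slash_of_val_eq_scalar (k : ℤ) (f : ℍ → ℂ) (s : GL (Fin 2) ℝ) (c : ℕ) (hc : c ≠ 0)
    (hs : (s : Matrix (Fin 2) (Fin 2) ℝ) = !![(c : ℝ), 0; 0, (c : ℝ)]) :
    f ∣[k] s = ((c : ℂ) ^ (k - 2)) • f := by
  have hc' : (c : ℂ) ≠ 0 := by exact_mod_cast hc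
  have hdet : (s.det : ℝ) = (c : ℝ) ^ 2 := by
    rw [Matrix.GeneralLinearGroup.val_det_apply, hs, Matrix.det_fin_two_of]
    ring
  have hpos : (0 : ℝ) < (s.det : ℝ) := by
    rw [hdet]; positivity
  ext τ
  have hσ : UpperHalfPlane.σ s = .refl ℝ ℂ := by
    rw [UpperHalfPlane.σ, if_pos hpos]
  have hdenom : UpperHalfPlane.denom s τ = (c : ℂ) := by
    simp [UpperHalfPlane.denom, hs]
  have hsmul : s • τ = τ := by
    apply UpperHalfPlane.ext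
    rw [UpperHalfPlane.coe_smul_of_det_pos hpos]
    simp [UpperHalfPlane.num, UpperHalfPlane.denom, hs]
    field_simp
  rw [ModularForm.slash_apply, hσ, hdet, hdenom, hsmul]
  simp only [ContinuousAlgEquiv.refl_apply, Pi.smul_apply, smul_eq_mul]
  have habs : |(c : ℝ) ^ 2| = (c : ℝ) ^ 2 := abs_of_nonneg (by positivity)
  rw [habs]
  push_cast
  have h1 : ((c : ℂ) ^ 2) ^ (k - 1) = (c : ℂ) ^ (2 * (k - 1)) := by
    rw [← zpow_natCast, ← zpow_mul]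
    norm_num
  rw [h1, mul_assoc, ← zpow_add₀ hc', mul_comm]
  congr 2
  ring

/-- If `X = (c • 1) * Y` as real matrices (`c > 0` a natural number), then
`f ∣[k] X = c^(k-2) • f ∣[k] Y`. -/
theorem slash_eq_of_val_eq_smul (k : ℤ) (f : ℍ → ℂ) (X Y : GL (Fin 2) ℝ) (c : ℕ) (hc : c ≠ 0)
    (h : (X : Matrix (Fin 2) (Fin 2) ℝ) = (c : ℝ) • (Y : Matrix (Fin 2) (Fin 2) ℝ)) :
    f ∣[k] X = ((c : ℂ) ^ (k - 2)) • (f ∣[k] Y) := by
  have hc' : (c : ℝ) ≠ 0 := by exact_mod_cast hc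
  let s : GL (Fin 2) ℝ := Matrix.GeneralLinearGroup.mkOfDetNeZero !![(c : ℝ), 0; 0, (c : ℝ)]
    (by rw [Matrix.det_fin_two_of]; simpa using hc')
  have hs : (s : Matrix (Fin 2) (Fin 2) ℝ) = !![(c : ℝ), 0; 0, (c : ℝ)] := rfl
  have hX : X = Y * s := by
    apply Units.ext
    rw [Units.val_mul, h, hs]
    ext i j
    fin_cases i <;> fin_cases j <;>
      simp [Matrix.mul_apply, Fin.sum_univ_two, mul_comm]
  rw [hX, SlashAction.slash_mul]
  exact slash_of_val_eq_scalar k _ s c hc hs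

/-! ### (T1): `p ∤ M` prime -/

section T1

variable (M p : ℕ) (k : ℤ)

/-- The integer matrix `[a, a j + b; M c, M c j + p d]` with `A * heckeMatrix p j = p • β_j`. -/
def alBeta (a b c d : ℤ) (hdet : (p : ℤ) * a * d - M * b * c = 1) (j : ℤ) : SL(2, ℤ) :=
  ⟨!![a, a * j + b; (M : ℤ) * c, M * c * j + p * d],
    by rw [Matrix.det_fin_two_of]; linear_combination hdet⟩

@[simp] theorem coe_alBeta (a b c d : ℤ) (hdet : (p : ℤ) * a * d - M * b * c = 1) (j : ℤ) :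
    ((alBeta M p a b c d hdet j : SL(2, ℤ)) : Matrix (Fin 2) (Fin 2) ℤ) =
      !![a, a * j + b; (M : ℤ) * c, M * c * j + p * d] := rfl

theorem alBeta_mul_inv_mem (a b c d : ℤ) (hdet : (p : ℤ) * a * d - M * b * c = 1)
    (x y : ℤ) (hxy : (p : ℤ) * x - M * y = 1) (j : ℤ) :
    alBeta M p a b c d hdet j * (newMat M p x y hxy j)⁻¹ ∈ Gamma0 (M * p) := by
  rw [gamma0_mem_iff_dvd, mul_inv_apply_one_zero]
  simp only [coe_alBeta, coe_newMat, Matrix.of_apply, Matrix.cons_val', Matrix.cons_val_one,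
    Matrix.cons_val_zero, Matrix.cons_val_fin_one]
  refine ⟨c - d, ?_⟩
  push_cast
  ring

theorem al_mul_heckeMatrix (hp : p ≠ 0) (A : GL (Fin 2) ℝ) (a b c d : ℤ)
    (hA : (A : Matrix (Fin 2) (Fin 2) ℝ) = !![(p : ℝ) * a, b; (M : ℝ) * p * c, (p : ℝ) * d])
    (hdet : (p : ℤ) * a * d - M * b * c = 1) (j : ℕ) :
    ((A * heckeMatrix p j : GL (Fin 2) ℝ) : Matrix (Fin 2) (Fin 2) ℝ) =
      (p : ℝ) • ((mapGL ℝ (alBeta M p a b c d hdet j) : GL (Fin 2) ℝ) :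
        Matrix (Fin 2) (Fin 2) ℝ) := by
  rw [Units.val_mul, hA, val_heckeMatrix hp, mapGL_coe_matrix]
  ext i l
  fin_cases i <;> fin_cases l <;>
    simp [Matrix.mul_apply, Fin.sum_univ_two] <;> ring

/-- **(T1), coset-sum form.** -/
theorem sum_slash_newMat_eq (hp : p ≠ 0) (x y : ℤ) (hxy : (p : ℤ) * x - M * y = 1)
    (f : ℍ → ℂ) (hf : Gamma0Inv (M * p) k f)
    (A : GL (Fin 2) ℝ) (a b c d : ℤ)
    (hA : (A : Matrix (Fin 2) (Fin 2) ℝ) = !![(p : ℝ) * a, b; (M : ℝ) * p * c, (p : ℝ) * d])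
    (hdet : (p : ℤ) * a * d - M * b * c = 1) :
    ∑ j ∈ Finset.range p, f ∣[k] (mapGL ℝ (newMat M p x y hxy (j : ℕ))) =
      ((p : ℂ) ^ (2 - k)) • heckeU k p (f ∣[k] A) := by
  have hp' : (p : ℂ) ≠ 0 := by exact_mod_cast hp
  rw [heckeU_def, Finset.smul_sum]
  refine Finset.sum_congr rfl fun j _ => ?_
  rw [← SlashAction.slash_mul,
    slash_eq_of_val_eq_smul k f _ _ p hp (al_mul_heckeMatrix M p hp A a b c d hA hdet j),
    smul_smul, ← zpow_add₀ hp', hf.slash_eq (alBeta_mul_inv_mem M p a b c d hdet x y hxy j)]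
  simp

/-- **(T1)** for slash invariant forms: `Tr^{Mp}_M f = f + p^(2-k) • U_p (f ∣[k] A)`. -/
theorem SIF_coe_trace_eq_add_heckeU [hpp : Fact p.Prime]
    [hfin : (Gamma0 (M * p) : Subgroup (GL (Fin 2) ℝ)).IsFiniteRelIndex
      (Gamma0 M : Subgroup (GL (Fin 2) ℝ))]
    {F : Type*} [FunLike F ℍ ℂ]
    [SlashInvariantFormClass F (Gamma0 (M * p) : Subgroup (GL (Fin 2) ℝ)) k] (f : F)
    (A : GL (Fin 2) ℝ) (a b c d : ℤ)
    (hA : (A : Matrix (Fin 2) (Fin 2) ℝ) = !![(p : ℝ) * a, b; (M : ℝ) * p * c, (p : ℝ) * d])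
    (hdet : (p : ℤ) * a * d - M * b * c = 1) :
    (⇑(SlashInvariantForm.trace (Gamma0 M : Subgroup (GL (Fin 2) ℝ)) f) : ℍ → ℂ) =
      ⇑f + ((p : ℂ) ^ (2 - k)) • heckeU k p ((⇑f : ℍ → ℂ) ∣[k] A) := by
  have hxy : (p : ℤ) * (a * d) - M * (b * c) = 1 := by linear_combination hdet
  have hpM : ¬ p ∣ M := by
    intro h
    have h1 : (p : ℤ) ∣ 1 := by
      rw [← hxy]
      exact Dvd.dvd.sub (dvd_mul_right _ _) ((Int.natCast_dvd_natCast.mpr h).mul_right _)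
    have := Int.natCast_dvd_natCast.mp (by simpa using h1 : ((p : ℕ) : ℤ) ∣ ((1 : ℕ) : ℤ))
    exact hpp.out.one_lt.ne' (Nat.dvd_one.mp this)
  rw [SIF_coe_trace_eq_sum_newRep M p hpM (a * d) (b * c) hxy f,
    sum_slash_newMat_eq M p k hpp.out.ne_zero (a * d) (b * c) hxy (⇑f) (gamma0Inv_coe f)
      A a b c d hA hdet]

theorem MF_coe_trace_eq_add_heckeU [hpp : Fact p.Prime]
    [hfin : (Gamma0 (M * p) : Subgroup (GL (Fin 2) ℝ)).IsFiniteRelIndex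
      (Gamma0 M : Subgroup (GL (Fin 2) ℝ))]
    {F : Type*} [FunLike F ℍ ℂ]
    [ModularFormClass F (Gamma0 (M * p) : Subgroup (GL (Fin 2) ℝ)) k] (f : F)
    (A : GL (Fin 2) ℝ) (a b c d : ℤ)
    (hA : (A : Matrix (Fin 2) (Fin 2) ℝ) = !![(p : ℝ) * a, b; (M : ℝ) * p * c, (p : ℝ) * d])
    (hdet : (p : ℤ) * a * d - M * b * c = 1) :
    (⇑(ModularForm.trace (Gamma0 M : Subgroup (GL (Fin 2) ℝ)) f) : ℍ → ℂ) =
      ⇑f + ((p : ℂ) ^ (2 - k)) • heckeU k p ((⇑f : ℍ → ℂ) ∣[k] A) :=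
  SIF_coe_trace_eq_add_heckeU M p k f A a b c d hA hdet

theorem CF_coe_trace_eq_add_heckeU [hpp : Fact p.Prime]
    [hfin : (Gamma0 (M * p) : Subgroup (GL (Fin 2) ℝ)).IsFiniteRelIndex
      (Gamma0 M : Subgroup (GL (Fin 2) ℝ))]
    {F : Type*} [FunLike F ℍ ℂ]
    [CuspFormClass F (Gamma0 (M * p) : Subgroup (GL (Fin 2) ℝ)) k] (f : F)
    (A : GL (Fin 2) ℝ) (a b c d : ℤ)
    (hA : (A : Matrix (Fin 2) (Fin 2) ℝ) = !![(p : ℝ) * a, b; (M : ℝ) * p * c, (p : ℝ) * d])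
    (hdet : (p : ℤ) * a * d - M * b * c = 1) :
    (⇑(CuspForm.trace (Gamma0 M : Subgroup (GL (Fin 2) ℝ)) f) : ℍ → ℂ) =
      ⇑f + ((p : ℂ) ^ (2 - k)) • heckeU k p ((⇑f : ℍ → ℂ) ∣[k] A) :=
  SIF_coe_trace_eq_add_heckeU M p k f A a b c d hA hdet

/-- **(T1), weight 2, cusp forms**: `Tr^{Mp}_M f = f + U_p (f ∣[2] A)`. -/
theorem CF_coe_trace_eq_add_heckeU_two [hpp : Fact p.Prime]
    [hfin : (Gamma0 (M * p) : Subgroup (GL (Fin 2) ℝ)).IsFiniteRelIndex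
      (Gamma0 M : Subgroup (GL (Fin 2) ℝ))]
    {F : Type*} [FunLike F ℍ ℂ]
    [CuspFormClass F (Gamma0 (M * p) : Subgroup (GL (Fin 2) ℝ)) 2] (f : F)
    (A : GL (Fin 2) ℝ) (a b c d : ℤ)
    (hA : (A : Matrix (Fin 2) (Fin 2) ℝ) = !![(p : ℝ) * a, b; (M : ℝ) * p * c, (p : ℝ) * d])
    (hdet : (p : ℤ) * a * d - M * b * c = 1) :
    (⇑(CuspForm.trace (Gamma0 M : Subgroup (GL (Fin 2) ℝ)) f) : ℍ → ℂ) =
      ⇑f + heckeU 2 p ((⇑f : ℍ → ℂ) ∣[(2 : ℤ)] A) := by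
  rw [CF_coe_trace_eq_add_heckeU M p 2 f A a b c d hA hdet]
  simp

end T1

/-! ### (T2): the trace of a form of lower level -/

section T2

variable (M p : ℕ) (k : ℤ)

/-- **(T2), coset-sum form.** -/
theorem sum_slash_lowerUni_of_inv (f : ℍ → ℂ) (hf : Gamma0Inv M k f) :
    ∑ j ∈ Finset.range p, f ∣[k] (mapGL ℝ (lowerUni (M * (j : ℕ)))) = (p : ℂ) • f := by
  have h : ∀ j ∈ Finset.range p, f ∣[k] (mapGL ℝ (lowerUni (M * (j : ℕ)))) = f :=
    fun j _ => hf _ (lowerUni_mem_gamma0 M j)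
  rw [Finset.sum_congr rfl h]
  simp [Finset.sum_const, Finset.card_range, Nat.cast_smul_eq_nsmul]

/-- **(T2)**: if `f` has level `M p` (`p ∣ M`) but is invariant under `Γ₀(M)`, then
`Tr^{Mp}_M f = p • f`. -/
theorem SIF_coe_trace_eq_smul [NeZero M] [NeZero p] (hpM : p ∣ M)
    [hfin : (Gamma0 (M * p) : Subgroup (GL (Fin 2) ℝ)).IsFiniteRelIndex
      (Gamma0 M : Subgroup (GL (Fin 2) ℝ))]
    {F : Type*} [FunLike F ℍ ℂ]
    [SlashInvariantFormClass F (Gamma0 (M * p) : Subgroup (GL (Fin 2) ℝ)) k] (f : F)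
    (hf : Gamma0Inv M k (⇑f)) :
    (⇑(SlashInvariantForm.trace (Gamma0 M : Subgroup (GL (Fin 2) ℝ)) f) : ℍ → ℂ) =
      (p : ℂ) • (⇑f : ℍ → ℂ) := by
  rw [SIF_coe_trace_eq_sum_lowRep M p hpM f, sum_slash_lowerUni_of_inv M p k _ hf]

theorem CF_coe_trace_eq_smul [NeZero M] [NeZero p] (hpM : p ∣ M)
    [hfin : (Gamma0 (M * p) : Subgroup (GL (Fin 2) ℝ)).IsFiniteRelIndex
      (Gamma0 M : Subgroup (GL (Fin 2) ℝ))]
    {F : Type*} [FunLike F ℍ ℂ]
    [CuspFormClass F (Gamma0 (M * p) : Subgroup (GL (Fin 2) ℝ)) k] (f : F)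
    (hf : Gamma0Inv M k (⇑f)) :
    (⇑(CuspForm.trace (Gamma0 M : Subgroup (GL (Fin 2) ℝ)) f) : ℍ → ℂ) =
      (p : ℂ) • (⇑f : ℍ → ℂ) :=
  SIF_coe_trace_eq_smul M p k hpM f hf

end T2

/-! ### (T3): trace commutes with `B_q` -/

section T3

variable (M p q : ℕ) (k : ℤ)

theorem heckeDiagMatrix_mul_lowerUni (hq : q ≠ 0) (j : ℤ) :
    heckeDiagMatrix q * mapGL ℝ (lowerUni (((M * q : ℕ) : ℤ) * j)) =
      mapGL ℝ (lowerUni ((M : ℤ) * j)) * heckeDiagMatrix q := by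
  apply Units.ext
  rw [Units.val_mul, Units.val_mul, val_heckeDiagMatrix hq, mapGL_coe_matrix, mapGL_coe_matrix]
  ext i l
  fin_cases i <;> fin_cases l
  all_goals simp [Matrix.mul_apply, Fin.sum_univ_two]
  all_goals ring

/-- **(T3), coset-sum form**: no invariance needed. -/
theorem sum_slash_lowerUni_heckeDiag (hq : q ≠ 0) (f : ℍ → ℂ) :
    ∑ j ∈ Finset.range p,
        (f ∣[k] heckeDiagMatrix q) ∣[k] (mapGL ℝ (lowerUni (((M * q : ℕ) : ℤ) * (j : ℕ)))) =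
      (∑ j ∈ Finset.range p, f ∣[k] (mapGL ℝ (lowerUni ((M : ℤ) * (j : ℕ))))) ∣[k]
        heckeDiagMatrix q := by
  rw [SlashAction.sum_slash]
  refine Finset.sum_congr rfl fun j _ => ?_
  rw [← SlashAction.slash_mul, ← SlashAction.slash_mul, heckeDiagMatrix_mul_lowerUni M q hq]

/-- **(T3)**: `Tr^{Mqp}_{Mq} (h ∣ diag(q,1)) = (Tr^{Mp}_M h) ∣ diag(q,1)` for `p ∣ M`. -/
theorem SIF_coe_trace_heckeDiag [NeZero M] [NeZero p] [NeZero q] (hpM : p ∣ M)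
    [hfin : (Gamma0 (M * p) : Subgroup (GL (Fin 2) ℝ)).IsFiniteRelIndex
      (Gamma0 M : Subgroup (GL (Fin 2) ℝ))]
    [hfin' : (Gamma0 (M * q * p) : Subgroup (GL (Fin 2) ℝ)).IsFiniteRelIndex
      (Gamma0 (M * q) : Subgroup (GL (Fin 2) ℝ))]
    {F F' : Type*} [FunLike F ℍ ℂ] [FunLike F' ℍ ℂ]
    [SlashInvariantFormClass F (Gamma0 (M * p) : Subgroup (GL (Fin 2) ℝ)) k]
    [SlashInvariantFormClass F' (Gamma0 (M * q * p) : Subgroup (GL (Fin 2) ℝ)) k]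
    (h : F) (h' : F') (hh' : (⇑h' : ℍ → ℂ) = (⇑h : ℍ → ℂ) ∣[k] heckeDiagMatrix q) :
    (⇑(SlashInvariantForm.trace (Gamma0 (M * q) : Subgroup (GL (Fin 2) ℝ)) h') : ℍ → ℂ) =
      (⇑(SlashInvariantForm.trace (Gamma0 M : Subgroup (GL (Fin 2) ℝ)) h) : ℍ → ℂ) ∣[k]
        heckeDiagMatrix q := by
  have : NeZero (M * q) := ⟨Nat.mul_ne_zero (NeZero.ne M) (NeZero.ne q)⟩
  rw [SIF_coe_trace_eq_sum_lowRep (M * q) p (hpM.mul_right q) h',
    SIF_coe_trace_eq_sum_lowRep M p hpM h, hh',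
    sum_slash_lowerUni_heckeDiag M p q k (NeZero.ne q)]

theorem CF_coe_trace_heckeDiag [NeZero M] [NeZero p] [NeZero q] (hpM : p ∣ M)
    [hfin : (Gamma0 (M * p) : Subgroup (GL (Fin 2) ℝ)).IsFiniteRelIndex
      (Gamma0 M : Subgroup (GL (Fin 2) ℝ))]
    [hfin' : (Gamma0 (M * q * p) : Subgroup (GL (Fin 2) ℝ)).IsFiniteRelIndex
      (Gamma0 (M * q) : Subgroup (GL (Fin 2) ℝ))]
    {F F' : Type*} [FunLike F ℍ ℂ] [FunLike F' ℍ ℂ]
    [CuspFormClass F (Gamma0 (M * p) : Subgroup (GL (Fin 2) ℝ)) k]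
    [CuspFormClass F' (Gamma0 (M * q * p) : Subgroup (GL (Fin 2) ℝ)) k]
    (h : F) (h' : F') (hh' : (⇑h' : ℍ → ℂ) = (⇑h : ℍ → ℂ) ∣[k] heckeDiagMatrix q) :
    (⇑(CuspForm.trace (Gamma0 (M * q) : Subgroup (GL (Fin 2) ℝ)) h') : ℍ → ℂ) =
      (⇑(CuspForm.trace (Gamma0 M : Subgroup (GL (Fin 2) ℝ)) h) : ℍ → ℂ) ∣[k]
        heckeDiagMatrix q :=
  SIF_coe_trace_heckeDiag M p q k hpM h h' hh'

end T3

/-! ### (T4): the trace of `h ∣ diag(p,1)` for `p ∥ N` -/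

section T4

theorem val_mapGL_of_coe {g : SL(2, ℤ)} {a b c d : ℤ}
    (h : (g : Matrix (Fin 2) (Fin 2) ℤ) = !![a, b; c, d]) :
    ((mapGL ℝ g : GL (Fin 2) ℝ) : Matrix (Fin 2) (Fin 2) ℝ) = !![(a : ℝ), b; c, d] := by
  rw [mapGL_coe_matrix]
  ext i j
  fin_cases i <;> fin_cases j <;> simp [h]

theorem mat_fin_two_ext {R : Type*} {a b c d a' b' c' d' : R} (h11 : a = a') (h12 : b = b')
    (h21 : c = c') (h22 : d = d') : !![a, b; c, d] = !![a', b'; c', d'] := by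
  subst h11 h12 h21 h22; rfl

variable (M p : ℕ) (k : ℤ)

/-- The matrix `γ_t ∈ Γ₀(M p)` with
`heckeMatrix p t * A = A * γ_t * diag(p,1) * [1, 0; M p j, 1]`. -/
def alGamma (a b c d : ℤ) (hdet : (p : ℤ) * a * d - M * b * c = 1) (t j m : ℤ)
    (hjm : j + c * (a + M * c * t) = p * m) : SL(2, ℤ) :=
  ⟨!![a * d + M * c * (d * t - b) - M * j * (d * (b + p * (d * t - b))),
        d * (b + p * (d * t - b));
      ((M * p : ℕ) : ℤ) * (c * a - m - j * d * (p * a - a - M * c * t)),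
        -(M * c * b) + p * d * (p * a - M * c * t)], by
    rw [Matrix.det_fin_two_of]
    push_cast
    linear_combination ((p : ℤ) * a * d - M * b * c + 1 - M * (d * (b + p * (d * t - b))) * j)
      * hdet - (M * (d * (b + p * (d * t - b)))) * hjm⟩

theorem coe_alGamma (a b c d : ℤ) (hdet : (p : ℤ) * a * d - M * b * c = 1) (t j m : ℤ)
    (hjm : j + c * (a + M * c * t) = p * m) :
    ((alGamma M p a b c d hdet t j m hjm : SL(2, ℤ)) : Matrix (Fin 2) (Fin 2) ℤ) =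
      !![a * d + M * c * (d * t - b) - M * j * (d * (b + p * (d * t - b))),
        d * (b + p * (d * t - b));
      ((M * p : ℕ) : ℤ) * (c * a - m - j * d * (p * a - a - M * c * t)),
        -(M * c * b) + p * d * (p * a - M * c * t)] := rfl

theorem alGamma_mem (a b c d : ℤ) (hdet : (p : ℤ) * a * d - M * b * c = 1) (t j m : ℤ)
    (hjm : j + c * (a + M * c * t) = p * m) :
    alGamma M p a b c d hdet t j m hjm ∈ Gamma0 (M * p) := by
  rw [gamma0_mem_iff_dvd]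
  exact ⟨_, rfl⟩

theorem heckeMatrix_mul_al (hp : p ≠ 0) (A : GL (Fin 2) ℝ) (a b c d : ℤ)
    (hA : (A : Matrix (Fin 2) (Fin 2) ℝ) = !![(p : ℝ) * a, b; (M : ℝ) * p * c, (p : ℝ) * d])
    (hdet : (p : ℤ) * a * d - M * b * c = 1) (t j : ℕ) (m : ℤ)
    (hjm : (j : ℤ) + c * (a + M * c * t) = p * m) :
    heckeMatrix p t * A =
      A * (mapGL ℝ (alGamma M p a b c d hdet t j m hjm) *
        (heckeDiagMatrix p * mapGL ℝ (lowerUni (((M * p : ℕ) : ℤ) * (j : ℕ))))) := by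
  have hdetR : (p : ℝ) * a * d - M * b * c = 1 := by exact_mod_cast hdet
  have hjmR : (j : ℝ) + c * (a + M * c * t) = p * m := by exact_mod_cast hjm
  apply Units.ext
  rw [Units.val_mul, Units.val_mul, Units.val_mul, Units.val_mul, val_heckeMatrix hp, hA,
    val_heckeDiagMatrix hp, val_mapGL_of_coe (coe_alGamma M p a b c d hdet t j m hjm),
    val_mapGL_of_coe (coe_lowerUni _), Matrix.mul_fin_two, Matrix.mul_fin_two,
    Matrix.mul_fin_two, Matrix.mul_fin_two]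
  refine mat_fin_two_ext ?_ ?_ ?_ ?_
  · push_cast
    linear_combination (-((p : ℝ) * a + t * (M * p) * c + b * (M * p) * j)) * hdetR
      - (b * (M * p)) * hjmR
  · push_cast
    linear_combination (-((b : ℝ) + t * p * d)) * hdetR
  · push_cast
    linear_combination (-((p : ℝ) * (M * p) * c + p * d * (M * p) * j)) * hdetR
      - (p * d * (M * p)) * hjmR
  · push_cast
    linear_combination (-((p : ℝ) ^ 2 * d)) * hdetR

/-- Reindexing a sum over `range p` along an affine permutation of `ZMod p`. -/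
theorem sum_range_affine {α : Type*} [AddCommMonoid α] [NeZero p] (u v u' : ZMod p)
    (huu' : u * u' = 1) (G : ℕ → α) :
    ∑ t ∈ Finset.range p, G ((u * (t : ZMod p) + v).val) = ∑ j ∈ Finset.range p, G j := by
  refine Finset.sum_nbij' (fun t => (u * (t : ZMod p) + v).val)
    (fun j => (u' * ((j : ZMod p) - v)).val) ?_ ?_ ?_ ?_ ?_
  · intro t _
    exact Finset.mem_range.mpr (ZMod.val_lt _)
  · intro j _
    exact Finset.mem_range.mpr (ZMod.val_lt _)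
  · intro t ht
    have ht' : t < p := Finset.mem_range.mp ht
    show (u' * (((u * (t : ZMod p) + v).val : ZMod p) - v)).val = t
    rw [ZMod.natCast_zmod_val]
    have : u' * (u * (t : ZMod p) + v - v) = (t : ZMod p) := by
      rw [add_sub_cancel_right, ← mul_assoc, mul_comm u' u, huu', one_mul]
    rw [this, ZMod.val_natCast_of_lt ht']
  · intro j hj
    have hj' : j < p := Finset.mem_range.mp hj
    show (u * (((u' * ((j : ZMod p) - v)).val : ZMod p)) + v).val = j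
    rw [ZMod.natCast_zmod_val]
    have : u * (u' * ((j : ZMod p) - v)) + v = (j : ZMod p) := by
      rw [← mul_assoc, huu', one_mul, sub_add_cancel]
    rw [this, ZMod.val_natCast_of_lt hj']
  · intro t _
    rfl

/-- **(T4), coset-sum form.**  For `f` invariant under `Γ₀(M p)` and an Atkin–Lehner matrix
`A = [p a, b; M p c, p d]`:
`∑_{j<p} (f ∣ diag(p,1)) ∣ [1, 0; M p j, 1] = (U_p (f ∣ A⁻¹)) ∣ A`. -/
theorem sum_slash_heckeDiag_lowerUni_eq (hp : p ≠ 0) (f : ℍ → ℂ)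
    (hf : Gamma0Inv (M * p) k f) (A : GL (Fin 2) ℝ) (a b c d : ℤ)
    (hA : (A : Matrix (Fin 2) (Fin 2) ℝ) = !![(p : ℝ) * a, b; (M : ℝ) * p * c, (p : ℝ) * d])
    (hdet : (p : ℤ) * a * d - M * b * c = 1) :
    ∑ j ∈ Finset.range p,
        (f ∣[k] heckeDiagMatrix p) ∣[k] (mapGL ℝ (lowerUni (((M * p : ℕ) : ℤ) * (j : ℕ)))) =
      (heckeU k p (f ∣[k] A⁻¹)) ∣[k] A := by
  have : NeZero p := ⟨hp⟩
  -- the affine permutation `t ↦ -c (a + M c t) = (-(M c^2)) t + (-(c a))`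
  set u : ZMod p := -((M : ZMod p) * c * c) with hu
  set v : ZMod p := -((c : ZMod p) * a) with hv
  set u' : ZMod p := -((M : ZMod p) * b * b) with hu'
  have hdetZ : (M : ZMod p) * b * c = -1 := by
    have := congrArg (fun z : ℤ => (z : ZMod p)) hdet
    simp only [Int.cast_sub, Int.cast_mul, Int.cast_natCast, Int.cast_one,
      ZMod.natCast_self, zero_mul, zero_sub] at this
    rw [← this]; ring
  have huu' : u * u' = 1 := by
    rw [hu, hu']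
    have : -((M : ZMod p) * c * c) * -((M : ZMod p) * b * b) =
        ((M : ZMod p) * b * c) * ((M : ZMod p) * b * c) := by ring
    rw [this, hdetZ]; ring
  rw [← sum_range_affine p u v u' huu'
    (fun j => (f ∣[k] heckeDiagMatrix p) ∣[k]
      (mapGL ℝ (lowerUni (((M * p : ℕ) : ℤ) * (j : ℕ)))))]
  rw [heckeU_def, SlashAction.sum_slash]
  refine Finset.sum_congr rfl fun t _ => ?_
  -- the quotient `m`
  have hdvd : (p : ℤ) ∣ (((u * (t : ZMod p) + v).val : ℕ) : ℤ) + c * (a + M * c * t) := by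
    rw [← ZMod.intCast_zmod_eq_zero_iff_dvd]
    push_cast
    rw [ZMod.natCast_zmod_val, hu, hv]
    ring
  obtain ⟨m, hm⟩ := hdvd
  have key := heckeMatrix_mul_al M p hp A a b c d hA hdet t (u * (t : ZMod p) + v).val m hm
  have hR : ((f ∣[k] A⁻¹) ∣[k] heckeMatrix p t) ∣[k] A =
      f ∣[k] (A⁻¹ * (heckeMatrix p t * A)) := by
    rw [SlashAction.slash_mul, SlashAction.slash_mul]
  rw [hR, key, inv_mul_cancel_left, SlashAction.slash_mul,
    hf _ (alGamma_mem M p a b c d hdet _ _ _ hm), SlashAction.slash_mul]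

/-- **(T4)** for slash invariant forms: if `h'` (level `M p p`) is `h ∣ diag(p,1)` with `h` of
level `M p`, then `Tr^{Mpp}_{Mp} h' = (U_p (h ∣ A⁻¹)) ∣ A`. -/
theorem SIF_coe_trace_heckeDiag_self [NeZero M] [NeZero p]
    [hfin : (Gamma0 (M * p * p) : Subgroup (GL (Fin 2) ℝ)).IsFiniteRelIndex
      (Gamma0 (M * p) : Subgroup (GL (Fin 2) ℝ))]
    {F' : Type*} [FunLike F' ℍ ℂ]
    [SlashInvariantFormClass F' (Gamma0 (M * p * p) : Subgroup (GL (Fin 2) ℝ)) k]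
    (h : ℍ → ℂ) (hh : Gamma0Inv (M * p) k h) (h' : F')
    (hh' : (⇑h' : ℍ → ℂ) = h ∣[k] heckeDiagMatrix p)
    (A : GL (Fin 2) ℝ) (a b c d : ℤ)
    (hA : (A : Matrix (Fin 2) (Fin 2) ℝ) = !![(p : ℝ) * a, b; (M : ℝ) * p * c, (p : ℝ) * d])
    (hdet : (p : ℤ) * a * d - M * b * c = 1) :
    (⇑(SlashInvariantForm.trace (Gamma0 (M * p) : Subgroup (GL (Fin 2) ℝ)) h') : ℍ → ℂ) =
      (heckeU k p (h ∣[k] A⁻¹)) ∣[k] A := by
  have : NeZero (M * p) := ⟨Nat.mul_ne_zero (NeZero.ne M) (NeZero.ne p)⟩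
  rw [SIF_coe_trace_eq_sum_lowRep (M * p) p (dvd_mul_left p M) h', hh',
    sum_slash_heckeDiag_lowerUni_eq M p k (NeZero.ne p) h hh A a b c d hA hdet]

theorem CF_coe_trace_heckeDiag_self [NeZero M] [NeZero p]
    [hfin : (Gamma0 (M * p * p) : Subgroup (GL (Fin 2) ℝ)).IsFiniteRelIndex
      (Gamma0 (M * p) : Subgroup (GL (Fin 2) ℝ))]
    {F' : Type*} [FunLike F' ℍ ℂ]
    [CuspFormClass F' (Gamma0 (M * p * p) : Subgroup (GL (Fin 2) ℝ)) k]
    (h : ℍ → ℂ) (hh : Gamma0Inv (M * p) k h) (h' : F')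
    (hh' : (⇑h' : ℍ → ℂ) = h ∣[k] heckeDiagMatrix p)
    (A : GL (Fin 2) ℝ) (a b c d : ℤ)
    (hA : (A : Matrix (Fin 2) (Fin 2) ℝ) = !![(p : ℝ) * a, b; (M : ℝ) * p * c, (p : ℝ) * d])
    (hdet : (p : ℤ) * a * d - M * b * c = 1) :
    (⇑(CuspForm.trace (Gamma0 (M * p) : Subgroup (GL (Fin 2) ℝ)) h') : ℍ → ℂ) =
      (heckeU k p (h ∣[k] A⁻¹)) ∣[k] A :=
  SIF_coe_trace_heckeDiag_self M p k h hh h' hh' A a b c d hA hdet

end T4

end Fermat.Agent.Lib.Newform.H623
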